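import Fermat.Agent.QuarticResolvent.Algebra
import Fermat.Agent.Monogenic.Count

/-!
# Depressed generators of a quartic field

A quartic field has for every prime `ℓ ≥ 4` an integral generator of trace zero whose index is
prime to `ℓ`; its resolvent has no rational root unless the field has a quadratic subfield, and
its discriminant is the discriminant of the field times the square of the index.
-/

set_option autoImplicit false
set_option linter.style.haveILetI false

noncomputable section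

open NumberField Module Finset Polynomial
open FA.Monogenic (Covers)
open scoped Classical IntermediateField

namespace FA.QuarticResolvent

variable {L : Type} [Field L] [NumberField L]

/-- A root of `t⁴ + p t² + q t + r` of degree four. -/
structure Depressed (L : Type) [Field L] [NumberField L] where
  /-- The root. -/
  θ : L
  /-- The coefficient of `t²`. -/
  p : ℤ
  /-- The coefficient of `t`. -/
  q : ℤ
  /-- The constant term. -/
  r : ℤ
  root : θ ^ 4 + (p : L) * θ ^ 2 + (q : L) * θ + (r : L) = 0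
  deg : (minpoly ℚ θ).natDegree = 4

/-- The resolvent has a root at `z`. -/
def Depressed.IsRes (D : Depressed L) {R : Type*} [CommRing R] (z : R) : Prop :=
  resEval (D.p : R) (D.q : R) (D.r : R) z = 0

/-- The resolvent has no rational root. -/
def Depressed.NoRatRoot (D : Depressed L) : Prop := ∀ z : ℚ, ¬ D.IsRes z

/-- The discriminant of the resolvent. -/
def Depressed.disc (D : Depressed L) : ℤ :=
  cubicDisc (2 * D.p) (D.p ^ 2 - 4 * D.r) (-D.q ^ 2)

theorem Depressed.IsRes.map {D : Depressed L} {R S : Type*} [CommRing R] [CommRing S] (f : R →+* S)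
    {z : R} (h : D.IsRes z) : D.IsRes (f z) := by
  have := congrArg f (show resEval (D.p : R) D.q D.r z = 0 from h)
  simpa [Depressed.IsRes, resEval, map_ofNat] using this

theorem Depressed.gen_eq_top (D : Depressed L) (hn : finrank ℚ L = 4) : ℚ⟮D.θ⟯ = ⊤ :=
  IntermediateField.eq_of_le_of_finrank_eq le_top (by
    rw [IntermediateField.adjoin.finrank (IsIntegral.of_finite ℚ _), D.deg,
      IntermediateField.finrank_top', hn])

theorem Depressed.hom_ext (D : Depressed L) (hn : finrank ℚ L = 4) {f g : L →ₐ[ℚ] ℂ}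
    (h : f D.θ = g D.θ) : f = g := by
  refine AlgHom.ext_of_adjoin_eq_top (s := {D.θ}) ?_ (by simpa using h)
  rw [← IntermediateField.adjoin_simple_toSubalgebra_of_isAlgebraic
    (Algebra.IsAlgebraic.isAlgebraic D.θ), D.gen_eq_top hn, IntermediateField.top_toSubalgebra]

/-- The conjugates of the generator are the roots, for every numbering of the embeddings. -/
theorem Depressed.quadRoots (D : Depressed L) (hn : finrank ℚ L = 4)
    (e : Fin 4 ≃ (L →ₐ[ℚ] ℂ)) :
    QuadRoots (D.p : ℂ) (D.q : ℂ) (D.r : ℂ) (fun i => e i D.θ) where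
  inj i j h := e.injective (D.hom_ext hn h)
  root i := by
    have := congrArg (e i) D.root
    simpa using this

theorem exists_embeddings (L : Type) [Field L] [NumberField L] {n : ℕ} (hn : finrank ℚ L = n) :
    Nonempty (Fin n ≃ (L →ₐ[ℚ] ℂ)) :=
  ⟨(Fintype.equivFinOfCardEq ((AlgHom.card ℚ L ℂ).trans hn)).symm⟩

/-- No polynomial of degree below four kills the generator. -/
theorem Depressed.coeff_zero (D : Depressed L) {a b c d : ℚ}
    (h : (a : L) * D.θ ^ 3 + (b : L) * D.θ ^ 2 + (c : L) * D.θ + (d : L) = 0) :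
    a = 0 ∧ b = 0 ∧ c = 0 ∧ d = 0 := by
  set P : ℚ[X] := C a * X ^ 3 + C b * X ^ 2 + C c * X + C d
  have hP : aeval D.θ P = 0 := by simpa [P] using h
  have hdeg : P.natDegree ≤ 3 := by simp only [P]; compute_degree
  have hP0 : P = 0 := by
    by_contra hne
    have := (natDegree_le_of_dvd (minpoly.dvd ℚ _ hP) hne).trans hdeg
    rw [D.deg] at this
    omega
  refine ⟨?_, ?_, ?_, ?_⟩
  · simpa [P, coeff_X, coeff_C] using congrArg (fun Q => Polynomial.coeff Q 3) hP0
  · simpa [P, coeff_X, coeff_C] using congrArg (fun Q => Polynomial.coeff Q 2) hP0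
  · simpa [P, coeff_X, coeff_C] using congrArg (fun Q => Polynomial.coeff Q 1) hP0
  · simpa [P, coeff_X, coeff_C] using congrArg (fun Q => Polynomial.coeff Q 0) hP0

/-- Every element is a polynomial of degree below four in the generator. -/
theorem Depressed.exists_coords (D : Depressed L) (hn : finrank ℚ L = 4) (y : L) :
    ∃ a b c d : ℚ,
      y = (a : L) + (b : L) * D.θ + (c : L) * D.θ ^ 2 + (d : L) * D.θ ^ 3 := by
  have hint : IsIntegral ℚ D.θ := IsIntegral.of_finite ℚ _
  have hy : y ∈ Algebra.adjoin ℚ {D.θ} := by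
    rw [← IntermediateField.adjoin_simple_toSubalgebra_of_isAlgebraic
      (Algebra.IsAlgebraic.isAlgebraic D.θ), D.gen_eq_top hn]
    trivial
  rw [Algebra.adjoin_singleton_eq_range_aeval] at hy
  obtain ⟨P, rfl⟩ := (AlgHom.mem_range _).mp hy
  set Q := P %ₘ minpoly ℚ D.θ
  have hQ : aeval D.θ Q = aeval D.θ P := by
    conv_rhs => rw [← modByMonic_add_div P (minpoly ℚ D.θ)]
    simp [Q, minpoly.aeval]
  have hdeg : Q.natDegree < 4 := D.deg ▸ natDegree_modByMonic_lt P (minpoly.monic hint)
    (minpoly.ne_one ℚ D.θ)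
  refine ⟨Q.coeff 0, Q.coeff 1, Q.coeff 2, Q.coeff 3, ?_⟩
  rw [← hQ, aeval_eq_sum_range' hdeg, sum_range_succ, sum_range_succ, sum_range_succ,
    sum_range_succ, sum_range_zero]
  simp [Rat.smul_def]

/-- **Without a quadratic subfield the resolvent has no rational root.** -/
theorem Depressed.noRatRoot (D : Depressed L)
    (hk : ∀ k : IntermediateField ℚ L, finrank ℚ k ≠ 2) : D.NoRatRoot := by
  have key : ∀ t : L, (∀ u : ℚ, (u : L) ≠ t) → (∃ b c : ℚ, t ^ 2 + (b : L) * t + (c : L) = 0) →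
      False := by
    rintro t ht ⟨b, c, hbc⟩
    have hint : IsIntegral ℚ t := IsIntegral.of_finite ℚ _
    refine hk ℚ⟮t⟯ ?_
    rw [IntermediateField.adjoin.finrank hint]
    refine le_antisymm ?_ ((minpoly.two_le_natDegree_iff hint).mpr fun ⟨u, hu⟩ =>
      ht u (by rw [← hu, eq_ratCast]))
    refine (natDegree_le_of_dvd (minpoly.dvd ℚ t (p := X ^ 2 + C b * X + C c)
      (by simpa using hbc)) ?_).trans (by compute_degree)
    intro h0
    have := congrArg (fun Q => Polynomial.coeff Q 2) h0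
    simp [coeff_X, coeff_C] at this
  intro z hz
  have hz' : resEval (D.p : L) D.q D.r (z : L) = 0 := by
    have := Depressed.IsRes.map (algebraMap ℚ L) hz
    simpa [Depressed.IsRes] using this
  unfold resEval at hz'
  by_cases hz0 : z = 0
  · subst hz0
    have hq : (D.q : L) = 0 := (pow_eq_zero_iff two_ne_zero).mp (by
      push_cast at hz'; linear_combination -hz')
    refine key (D.θ ^ 2) (fun u hu => ?_) ⟨D.p, D.r, ?_⟩
    · exact one_ne_zero (D.coeff_zero (a := 0) (b := 1) (c := 0) (d := -u)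
        (by push_cast; linear_combination -hu)).2.1
    · push_cast
      linear_combination D.root - D.θ * hq
  have hz0' : (z : L) ≠ 0 := Rat.cast_ne_zero.mpr hz0
  set den : L := (z : L) + 2 * D.θ ^ 2 + (D.p : L)
  have hden : den ≠ 0 := fun h => two_ne_zero (α := ℚ)
    (D.coeff_zero (a := 0) (b := 2) (c := 0) (d := z + D.p)
      (by push_cast; linear_combination h)).2.1
  set t : L := (2 * (z : L) * D.θ - (D.q : L)) / den with htdef
  have ht : t * den = 2 * (z : L) * D.θ - (D.q : L) := div_mul_cancel₀ _ hden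
  have ht2 : t ^ 2 = (z : L) := by
    refine mul_right_cancel₀ (pow_ne_zero 2 hden) ?_
    have : (t * den) ^ 2 = (z : L) * den ^ 2 := by
      rw [ht]
      simp only [den]
      linear_combination -hz' - 4 * (z : L) * D.root
    linear_combination this
  refine key t (fun u hu => ?_) ⟨0, -z, by push_cast; linear_combination ht2⟩
  have hu0 : u ≠ 0 := fun e => hz0' (by rw [← ht2, ← hu, e]; simp)
  refine hu0 ?_
  have := (D.coeff_zero (a := 0) (b := 2 * u) (c := -2 * z) (d := u * (z + D.p) + D.q) (by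
    rw [← hu] at ht
    simp only [den] at ht
    push_cast
    linear_combination ht)).2.1
  linarith

/-- The coordinates of the powers of an integer in an integral basis. -/
theorem exists_index {n : ℕ} (K : Type) [Field K] [NumberField K] (hK : finrank ℚ K = n)
    (θ : 𝓞 K) (e : Fin n ≃ (K →ₐ[ℚ] ℂ)) :
    ∃ m : ℤ, (Matrix.vandermonde fun i => e i (θ : K)).det ^ 2 =
        (m : ℂ) ^ 2 * (discr K : ℂ) ∧
      ∀ p : ℕ, p.Prime → Covers (Ideal.span {(p : 𝓞 K)}) θ → ¬ (p : ℤ) ∣ m := by
  have hcard : Fintype.card (Free.ChooseBasisIndex ℤ (𝓞 K)) = n := by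
    rw [← finrank_eq_card_chooseBasisIndex, RingOfIntegers.rank, hK]
  set ε : Free.ChooseBasisIndex ℤ (𝓞 K) ≃ Fin n := Fintype.equivFinOfCardEq hcard
  set bZ := (RingOfIntegers.basis K).reindex ε
  set B := (integralBasis K).reindex ε with hB
  set P : Matrix (Fin n) (Fin n) ℤ := fun i j => bZ.repr (θ ^ (j : ℕ)) i
  refine ⟨P.det, ?_, ?_⟩
  · set pw : Fin n → K := fun j => (θ : K) ^ (j : ℕ)
    have hM : B.toMatrix pw = P.map (algebraMap ℤ ℚ) := by
      ext i j
      rw [Basis.toMatrix_apply, Basis.repr_reindex_apply, Matrix.map_apply]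
      simp only [P, bZ, Basis.repr_reindex_apply, pw]
      rw [show ((θ : K) ^ (j : ℕ)) = ((θ ^ (j : ℕ) : 𝓞 K) : K) by push_cast; ring]
      exact integralBasis_repr_apply K _ _
    have hd : Algebra.discr ℚ pw = (P.det : ℚ) ^ 2 * (discr K : ℚ) := by
      rw [show (P.det : ℚ) = (B.toMatrix pw).det by
          rw [hM, ← RingHom.mapMatrix_apply, ← RingHom.map_det, eq_intCast],
        coe_discr, ← Algebra.discr_reindex ℚ (integralBasis K) ε, ← Basis.coe_reindex, ← hB,
        ← Algebra.discr_of_matrix_vecMul, B.toMatrix_map_vecMul]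
    have h := Algebra.discr_eq_det_embeddingsMatrixReindex_pow_two ℚ ℂ pw e
    rw [hd, map_mul, map_pow, map_intCast, map_intCast] at h
    rw [h, ← Matrix.det_transpose]
    congr 2
    ext i j
    simp [Algebra.embeddingsMatrixReindex, Algebra.embeddingsMatrix, Matrix.vandermonde, pw]
  · intro p hp hc hdvd
    haveI := Fact.mk hp
    set f := minpoly ℤ θ
    have hθint : IsIntegral ℤ θ := RingOfIntegers.isIntegral θ
    have hfm : f.Monic := minpoly.monic hθint
    have hfn : f.natDegree ≤ n := by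
      have h1 : minpoly ℤ θ = minpoly ℤ (θ : K) :=
        (minpoly.algebraMap_eq (A := ℤ) RingOfIntegers.coe_injective θ).symm
      have h2 := minpoly.isIntegrallyClosed_eq_field_fractions' ℚ
        (RingOfIntegers.isIntegral_coe θ)
      have h3 : (minpoly ℚ (θ : K)).natDegree ≤ n := hK ▸ minpoly.natDegree_le _
      rw [h2, (minpoly.monic (RingOfIntegers.isIntegral_coe θ)).natDegree_map] at h3
      simpa [f, h1] using h3
    choose Q hQ using fun j : Fin n => hc (bZ j)
    have hdeg : ∀ j, (Q j %ₘ f).natDegree < n := fun j =>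
      lt_of_lt_of_le (natDegree_modByMonic_lt _ hfm (minpoly.ne_one ℤ θ)) hfn
    set M : Matrix (Fin n) (Fin n) ℤ := fun k j => (Q j %ₘ f).coeff k
    have hone : (Int.castRingHom (ZMod p)).mapMatrix (P * M) = 1 := by
      ext i j
      obtain ⟨z, hz⟩ := Ideal.mem_span_singleton'.mp (hQ j)
      have hval : aeval θ (Q j) = ∑ k : Fin n, M k j • θ ^ (k : ℕ) := by
        conv_lhs => rw [← modByMonic_add_div (Q j) f]
        rw [map_add, map_mul, minpoly.aeval, zero_mul, add_zero,
          aeval_eq_sum_range' (hdeg j),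
          ← Fin.sum_univ_eq_sum_range (fun k => (Q j %ₘ f).coeff k • θ ^ k)]
      have hsum : (P * M) i j = bZ.repr (bZ j) i - (p : ℤ) * bZ.repr z i := by
        have e1 : bZ.repr (aeval θ (Q j)) i = (P * M) i j := by
          rw [hval, map_sum, Finsupp.finsetSum_apply, Matrix.mul_apply]
          refine sum_congr rfl fun k _ => ?_
          rw [map_smul, Finsupp.smul_apply, smul_eq_mul, mul_comm]
        rw [← e1, show aeval θ (Q j) = bZ j - (p : ℤ) • z by
          rw [zsmul_eq_mul, Int.cast_natCast]; linear_combination hz]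
        rw [map_sub, map_smul, Finsupp.sub_apply, Finsupp.smul_apply, smul_eq_mul]
      rw [RingHom.mapMatrix_apply, Matrix.map_apply, hsum, Basis.repr_self, Finsupp.single_apply]
      simp [Matrix.one_apply, eq_comm]
    have := congrArg Matrix.det hone
    rw [← RingHom.map_det, Matrix.det_mul, map_mul, Matrix.det_one, eq_intCast,
      (ZMod.intCast_zmod_eq_zero_iff_dvd _ p).mpr hdvd, zero_mul] at this
    exact zero_ne_one this

theorem det_vandermonde_four {R : Type*} [CommRing R] (x : Fin 4 → R) :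
    (Matrix.vandermonde x).det =
      (x 1 - x 0) * (x 2 - x 0) * (x 3 - x 0) * (x 2 - x 1) * (x 3 - x 1) * (x 3 - x 2) := by
  simp [Matrix.det_vandermonde, Fin.prod_univ_four, Fin.prod_Ioi_zero, Fin.prod_Ioi_succ,
    Fin.prod_univ_succ]
  ring

/-- **The discriminant of the resolvent is that of the field times a square.** -/
theorem Depressed.disc_eq (D : Depressed L) (hn : finrank ℚ L = 4) (θ : 𝓞 L)
    (hθ : (θ : L) = D.θ) :
    ∃ m : ℤ, m ≠ 0 ∧ D.disc = m ^ 2 * discr L ∧
      ∀ p : ℕ, p.Prime → Covers (Ideal.span {(p : 𝓞 L)}) θ → ¬ (p : ℤ) ∣ m := by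
  obtain ⟨e⟩ := exists_embeddings L hn
  have hr := D.quadRoots hn e
  obtain ⟨m, hm, hcov⟩ := exists_index L hn θ e
  rw [hθ, det_vandermonde_four, ← hr.cubicDisc_eq] at hm
  refine ⟨m, ?_, Int.cast_injective (α := ℂ) ?_, hcov⟩
  · rintro rfl
    rw [hr.cubicDisc_eq, Int.cast_zero, zero_pow two_ne_zero, zero_mul] at hm
    revert hm
    simp only [pow_eq_zero_iff two_ne_zero, mul_eq_zero, sub_eq_zero, hr.inj.eq_iff]
    decide
  · rw [Int.cast_mul, Int.cast_pow, ← hm, Depressed.disc]
    simp [cubicDisc]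

/-- **A generator of trace zero with index prime to `ℓ`.** -/
theorem exists_local (hn : finrank ℚ L = 4) {ℓ : ℕ} (hℓ : ℓ.Prime) (h4 : 4 ≤ ℓ) :
    ∃ (D : Depressed L) (θ : 𝓞 L), (θ : L) = D.θ ∧ Covers (Ideal.span {(ℓ : 𝓞 L)}) θ := by
  haveI := Fact.mk hℓ
  obtain ⟨θ₀, hθ₀⟩ : ∃ θ₀ : 𝓞 L, Covers (Ideal.span {(ℓ : 𝓞 L)}) θ₀ := by
    by_contra hcon
    push Not at hcon
    have := FA.Monogenic.lt_finrank_of_forall_dvd (K := L) (p := ℓ) fun θ => by
      by_contra hd
      exact hcon θ ((FA.Monogenic.not_dvd_index_iff hℓ θ).mp hd)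
    omega
  obtain ⟨u, w, huw⟩ := (Nat.prime_iff_prime_int.mp hℓ).coprime_iff_not_dvd.mpr
    (show ¬ (ℓ : ℤ) ∣ 4 from fun h => by
      have : ℓ ∣ 4 := Int.natCast_dvd_natCast.mp (by exact_mod_cast h)
      have h' := Nat.le_of_dvd (by norm_num) this
      obtain rfl : ℓ = 4 := by omega
      norm_num at hℓ)
  set T : ℤ := Algebra.trace ℤ (𝓞 L) θ₀
  set θ : 𝓞 L := 4 * θ₀ - (T : 𝓞 L) with hθdef
  have hcov : Covers (Ideal.span {(ℓ : 𝓞 L)}) θ := fun x => by
    obtain ⟨P, hP⟩ := hθ₀ x
    refine ⟨P.comp (C w * (X + C T)), ?_⟩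
    rw [aeval_comp]
    have e : aeval θ (C w * (X + C T) : ℤ[X]) = θ₀ - (u : 𝓞 L) * θ₀ * (ℓ : 𝓞 L) := by
      have h' : (u : 𝓞 L) * (ℓ : 𝓞 L) + (w : 𝓞 L) * 4 = 1 := by
        exact_mod_cast congrArg (Int.cast : ℤ → 𝓞 L) huw
      simp [θ]
      linear_combination θ₀ * h'
    rw [e]
    obtain ⟨c, hc⟩ := sub_dvd_eval_sub θ₀ (θ₀ - (u : 𝓞 L) * θ₀ * (ℓ : 𝓞 L))
      (P.map (algebraMap ℤ (𝓞 L)))
    rw [eval_map_algebraMap, eval_map_algebraMap] at hc
    have h2 : aeval θ₀ P - aeval (θ₀ - (u : 𝓞 L) * θ₀ * (ℓ : 𝓞 L)) P ∈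
        Ideal.span {(ℓ : 𝓞 L)} :=
      Ideal.mem_span_singleton'.mpr ⟨(u : 𝓞 L) * θ₀ * c, by rw [hc]; ring⟩
    have := Ideal.add_mem _ hP h2
    rwa [sub_add_sub_cancel] at this
  obtain ⟨e⟩ := exists_embeddings L hn
  obtain ⟨m, hm, hmc⟩ := exists_index L hn θ e
  have hinj : Function.Injective fun i => e i (θ : L) := by
    rw [← Matrix.det_vandermonde_ne_zero_iff]
    intro h0
    rw [h0, zero_pow two_ne_zero] at hm
    have h' : m = 0 := by
      rcases mul_eq_zero.mp hm.symm with h | h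
      · exact_mod_cast (pow_eq_zero_iff two_ne_zero).mp h
      · exact absurd (Int.cast_eq_zero.mp h) (discr_ne_zero L)
    exact hmc ℓ hℓ hcov (h' ▸ dvd_zero _)
  have hint : IsIntegral ℚ (θ : L) := IsIntegral.of_finite ℚ _
  have hdeg : (minpoly ℚ (θ : L)).natDegree = 4 := by
    refine le_antisymm (hn ▸ minpoly.natDegree_le _) ?_
    have hroots : (univ.image fun i => e i (θ : L)) ⊆ ((minpoly ℚ (θ : L)).aroots ℂ).toFinset := by
      intro z hz
      obtain ⟨i, -, rfl⟩ := mem_image.mp hz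
      rw [Multiset.mem_toFinset, mem_aroots']
      exact ⟨(Polynomial.map_ne_zero_iff (algebraMap ℚ ℂ).injective).mpr (minpoly.ne_zero hint),
        by rw [aeval_algHom_apply, minpoly.aeval, map_zero]⟩
    calc 4 = (univ.image fun i => e i (θ : L)).card := by
          rw [card_image_of_injective _ hinj, card_univ, Fintype.card_fin]
      _ ≤ _ := (card_le_card hroots).trans ((Multiset.toFinset_card_le _).trans
          ((card_roots' _).trans (natDegree_map_le)))
  have hθint : IsIntegral ℤ (θ : L) := RingOfIntegers.isIntegral_coe θ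
  set f := minpoly ℤ (θ : L)
  have hfdeg : f.natDegree = 4 := by
    have h2 := minpoly.isIntegrallyClosed_eq_field_fractions' ℚ hθint
    rw [h2, (minpoly.monic hθint).natDegree_map] at hdeg
    exact hdeg
  have hroot : (θ : L) ^ 4 + (f.coeff 3 : L) * (θ : L) ^ 3 + (f.coeff 2 : L) * (θ : L) ^ 2 +
      (f.coeff 1 : L) * (θ : L) + (f.coeff 0 : L) = 0 := by
    have := minpoly.aeval ℤ (θ : L)
    rw [show minpoly ℤ (θ : L) = f from rfl, aeval_eq_sum_range, hfdeg, sum_range_succ,
      sum_range_succ, sum_range_succ, sum_range_succ, sum_range_succ, sum_range_zero,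
      show f.coeff 4 = 1 from hfdeg ▸ minpoly.monic hθint] at this
    simp only [zsmul_eq_mul] at this
    push_cast at this
    linear_combination this
  have hc3 : f.coeff 3 = 0 := by
    have htr : Algebra.trace ℚ L (θ : L) = 0 := by
      rw [show (θ : L) = (4 : ℚ) • (θ₀ : L) - algebraMap ℚ L (T : ℚ) by
          simp [θ, Rat.smul_def, map_ofNat],
        map_sub, map_smul, Algebra.trace_algebraMap, hn, nsmul_eq_mul, smul_eq_mul,
        show (T : ℚ) = Algebra.trace ℚ L (θ₀ : L) from ?_]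
      · norm_num
      · rw [← eq_intCast (algebraMap ℤ ℚ)]
        exact (Algebra.trace_localization (R := ℤ) (S := 𝓞 L) (M := nonZeroDivisors ℤ) θ₀).symm
    have hs : ∑ i, e i (θ : L) = 0 := by
      rw [Equiv.sum_comp e (fun σ : L →ₐ[ℚ] ℂ => σ (θ : L)), ← trace_eq_sum_embeddings, htr,
        map_zero]
    set x := fun i => e i (θ : L)
    have hxi : ∀ i j, i ≠ j → x i - x j ≠ 0 := fun i j h => sub_ne_zero.mpr (hinj.ne h)
    have hr : ∀ i, x i ^ 4 + (f.coeff 3 : ℂ) * x i ^ 3 + (f.coeff 2 : ℂ) * x i ^ 2 +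
        (f.coeff 1 : ℂ) * x i + (f.coeff 0 : ℂ) = 0 := fun i => by
      simpa [x] using congrArg (e i) hroot
    set c := (f.coeff 3 : ℂ)
    have A : ∀ i j, i ≠ j → x i ^ 3 + x i ^ 2 * x j + x i * x j ^ 2 + x j ^ 3 +
        c * (x i ^ 2 + x i * x j + x j ^ 2) + (f.coeff 2 : ℂ) * (x i + x j) + (f.coeff 1 : ℂ) = 0 :=
      fun i j h => mul_left_cancel₀ (hxi i j h) (by linear_combination hr i - hr j)
    have B : ∀ k, (1 : Fin 4) ≠ k → (0 : Fin 4) ≠ k →
        x 0 ^ 2 + x 1 ^ 2 + x k ^ 2 + x 0 * x 1 + x 0 * x k + x 1 * x k +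
          c * (x 0 + x 1 + x k) + (f.coeff 2 : ℂ) = 0 := fun k h1 h0 =>
      mul_left_cancel₀ (hxi 1 k h1) (by linear_combination A 0 1 (by decide) - A 0 k h0)
    have hc : x 0 + x 1 + x 2 + x 3 + c = 0 := mul_left_cancel₀ (hxi 2 3 (by decide))
      (by linear_combination B 2 (by decide) (by decide) - B 3 (by decide) (by decide))
    rw [Fin.sum_univ_four] at hs
    have : (f.coeff 3 : ℂ) = 0 := by
      simp only [x, c] at hc
      linear_combination hc - hs
    exact_mod_cast this
  refine ⟨⟨(θ : L), f.coeff 2, f.coeff 1, f.coeff 0, ?_, hdeg⟩, θ, rfl, hcov⟩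
  rw [hc3] at hroot
  push_cast at hroot
  linear_combination hroot

end FA.QuarticResolvent
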