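import Fermat.Agent.AmbiguousClass.Applications
import Fermat.Agent.WashingtonAbelian.Stabilise

/-!
# The two-torsion of the class group of a quadratic field

A class killed by two is fixed by the conjugation, so Chevalley's formula bounds their number by a
power of two with the number of ramified primes in the exponent.
-/

set_option autoImplicit false
set_option linter.style.haveILetI false

noncomputable section

open NumberField IsDedekindDomain Module Finset
open FA.AmbClass FA.ArtinRec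
open scoped Classical Pointwise nonZeroDivisors

namespace FA.QuarticResolvent

/-- The two descriptions of the action on classes agree. -/
theorem galCl_eq_actCl {K : Type} [Field K] [NumberField K] (g : K ≃ₐ[ℚ] K)
    (c : ClassGroup (𝓞 K)) : galCl g c = FA.CycloTower.actCl g c := by
  rfl

/-- A class times its conjugate is trivial. -/
theorem mul_galCl {K : Type} [Field K] [NumberField K] [IsGalois ℚ K] {g : K ≃ₐ[ℚ] K}
    (hg : g ≠ 1) (hcard : Nat.card (K ≃ₐ[ℚ] K) = 2) (c : ClassGroup (𝓞 K)) :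
    c * galCl g c = 1 := by
  have huniv : (univ : Finset (K ≃ₐ[ℚ] K)) = {1, g} :=
    (eq_univ_of_card _ (by rw [card_pair (Ne.symm hg), ← Nat.card_eq_fintype_card, hcard])).symm
  obtain ⟨y, hy⟩ := FA.WashingtonAbelian.exists_extended_eq_prod (F := ℚ) c
  have hy1 : y = 1 := Fintype.card_le_one_iff.mp (le_of_eq (Rat.classNumber_eq)) _ _
  rw [hy1, map_one, huniv, prod_pair (Ne.symm hg)] at hy
  rw [galCl_eq_actCl]
  rw [show FA.CycloTower.actCl (1 : K ≃ₐ[ℚ] K) c = c by rw [map_one]; rfl] at hy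
  exact hy.symm

/-- **Genus theory, as an upper bound.** -/
theorem card_two_torsion_quadratic (K : Type) [Field K] [NumberField K] (hK : finrank ℚ K = 2) :
    Nat.card {c : ClassGroup (𝓞 K) // c ^ 2 = 1} ≤ 2 ^ (discr K).natAbs.primeFactors.card := by
  haveI : Algebra.IsQuadraticExtension ℚ K := ⟨hK⟩
  haveI : IsGalois ℚ K := inferInstance
  have hcard : Nat.card (K ≃ₐ[ℚ] K) = 2 := by rw [IsGalois.card_aut_eq_finrank, hK]
  haveI : Fact (Nat.Prime 2) := ⟨Nat.prime_two⟩
  haveI : IsCyclic (K ≃ₐ[ℚ] K) := isCyclic_of_prime_card hcard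
  obtain ⟨σ, hσ⟩ := exists_generator (K := ℚ) (L := K)
  have hfix : ∀ c : ClassGroup (𝓞 K), c ^ 2 = 1 → ∀ g : K ≃ₐ[ℚ] K, galCl g c = c := by
    intro c hc g
    by_cases hg : g = 1
    · subst hg
      obtain ⟨d, rfl⟩ := surjective_cls c
      rw [← cls_galDiv]
      exact congrArg cls ((galDiv_iterate (1 : K ≃ₐ[ℚ] K) 0 d).symm.trans rfl)
    calc galCl g c = c⁻¹ := eq_inv_of_mul_eq_one_right (mul_galCl hg hcard c)
      _ = c := inv_eq_of_mul_eq_one_right (by rw [← sq, hc])
  have hle : Nat.card {c : ClassGroup (𝓞 K) // c ^ 2 = 1} ≤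
      Nat.card {c : ClassGroup (𝓞 K) // ∀ g : K ≃ₐ[ℚ] K, galCl g c = c} :=
    Nat.card_le_card_of_injective (fun c => ⟨c.1, hfix c.1 c.2⟩)
      fun a b h => Subtype.ext (by simpa using congrArg Subtype.val h)
  refine hle.trans ?_
  have hF := card_fixed hσ
  rw [prod_infIdx, Rat.classNumber_eq, one_mul, hK] at hF
  set R := (finite_eBase_ne_one ℚ K).toFinset with hRdef
  rw [finprod_eq_prod_of_mulSupport_subset (s := R) _
    fun v hv => Finset.mem_coe.2 (by simpa [hRdef] using hv)] at hF
  have hinf : Nat.card {v : InfinitePlace ℚ // ¬ v.IsUnramifiedIn K} ≤ 1 :=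
    Finite.card_le_one_iff_subsingleton.mpr inferInstance
  have hR2 : ∏ v ∈ R, eBase K v ≤ 2 ^ R.card := (prod_le_prod' fun v _ =>
    hK ▸ Nat.le_of_dvd (by rw [hK]; norm_num) (eBase_dvd v)).trans_eq (prod_const _)
  have hRc : R.card ≤ (discr K).natAbs.primeFactors.card := by
    refine card_le_card_of_injOn (fun v => Rat.HeightOneSpectrum.natGenerator v) ?_
      fun v _ w _ h => ?_
    · intro v hv
      rw [Finset.mem_coe, hRdef, Set.Finite.mem_toFinset] at hv
      exact Nat.mem_primeFactors.mpr ⟨Rat.HeightOneSpectrum.prime_natGenerator v,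
        Int.natCast_dvd.mp ((eBase_ne_one_iff v).mp hv),
        Int.natAbs_ne_zero.mpr (discr_ne_zero K)⟩
    · exact Rat.HeightOneSpectrum.primesEquiv.injective (Subtype.ext h)
  set i := ((Units.map (Algebra.norm ℚ : K →* ℚ)).range.comap (intUnits (F := ℚ))).index
  set a := Nat.card {c : ClassGroup (𝓞 K) // ∀ g : K ≃ₐ[ℚ] K, galCl g c = c}
  have hi : 1 ≤ i := by
    refine Nat.one_le_iff_ne_zero.mpr fun h0 => ?_
    rw [h0, mul_zero] at hF
    exact mul_ne_zero (prod_ne_zero_iff.mpr fun v _ => (eBase_pos v).ne')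
      (pow_ne_zero _ two_ne_zero) hF.symm
  have h2 : a * 2 ≤ 2 ^ R.card * 2 :=
    calc a * 2 ≤ a * 2 * i := Nat.le_mul_of_pos_right _ hi
      _ = _ := hF
      _ ≤ 2 ^ R.card * 2 ^ 1 := Nat.mul_le_mul hR2 (Nat.pow_le_pow_right (by norm_num) hinf)
      _ = _ := by rw [pow_one]
  exact (Nat.le_of_mul_le_mul_right h2 two_pos).trans (Nat.pow_le_pow_right (by norm_num) hRc)

end FA.QuarticResolvent
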