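import Fermat.Agent.QuarticFieldsCount.Main
import Fermat.Agent.TwoSelmerBound.Descent
import Fermat.Agent.CubicFieldsBound.Count
import Fermat.Agent.QuarticResolvent.Genus

/-!
# Quartic fields with a quadratic subfield, by their ramified primes

Over each of the few quadratic fields ramified only in `S` a quadratic extension ramified only
above `S` is generated by the root of an element with even exponents outside `S`; with genus
theory there are at most exponentially many in the number of primes.
-/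

set_option autoImplicit false
set_option linter.style.haveILetI false

noncomputable section

open NumberField Module Finset IsDedekindDomain
open FA.MordellAverage
open FA.BrumerSilverman (expo expo_ne_zero_iff span_singleton_ne withSix toField toField_bijective)
open FA.TwoSelmerBound (EvenOutside card_classes_le_two exists_support)
open FA.QuarticFieldsCount (exists_sqrt_discr natAbs_discr_tower exists_integral_sq_root iso_of_sq)
open scoped Classical

namespace FA.QuarticResolvent

/-- Quadratic fields of one square class. -/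
theorem iso_of_class {K K' : Type} [Field K] [NumberField K] [Field K'] [NumberField K']
    (hK : finrank ℚ K = 2) (hK' : finrank ℚ K' = 2) {g g' m : ℤ}
    (h : -3 * discr K = g ^ 2 * m) (h' : -3 * discr K' = g' ^ 2 * m) :
    Nonempty (K ≃+* K') := by
  obtain ⟨s, hs, hsq⟩ := exists_sqrt_discr hK
  obtain ⟨s', hs', -⟩ := exists_sqrt_discr hK'
  have hg : g ≠ 0 := fun e => discr_ne_zero K (by rw [e] at h; simpa using h)
  have hg' : g' ≠ 0 := fun e => discr_ne_zero K' (by rw [e] at h'; simpa using h')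
  have hgK : (g' : K') ≠ 0 := Int.cast_ne_zero.mpr hg'
  have hd : (discr K : ℤ) * g' ^ 2 = discr K' * g ^ 2 :=
    mul_left_cancel₀ (show (-3 : ℤ) ≠ 0 by norm_num)
      (by linear_combination (g' : ℤ) ^ 2 * h - (g : ℤ) ^ 2 * h')
  have hS : (s' * (g : K') / (g' : K')) ^ 2 = ((discr K : ℚ) : K') := by
    have := congrArg (fun z : ℤ => (z : K')) hd
    push_cast at this hs' ⊢
    rw [div_pow, mul_pow, hs', div_eq_iff (pow_ne_zero 2 hgK)]
    linear_combination -this
  exact ⟨((AlgEquiv.ofBijective _ (toField_bijective hK hsq s hs)).symm.trans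
    (AlgEquiv.ofBijective _ (toField_bijective hK' hsq _ hS))).toRingEquiv⟩

/-- **Quadratic extensions of one quadratic field ramified above `S`.** -/
theorem extensions_le_ramified {S : Finset ℕ} (hS : ∀ p ∈ S, p.Prime) (K : Type) [Field K]
    [NumberField K] (hK : finrank ℚ K = 2) {ι : Type*} (L : ι → Type) [∀ i, Field (L i)]
    [∀ i, NumberField (L i)] [∀ i, Algebra K (L i)] (h2 : ∀ i, finrank K (L i) = 2)
    (hd : ∀ i, ∀ p : ℕ, p.Prime → (p : ℤ) ∣ discr (L i) → p ∈ S)
    (hne : ∀ i j, Nonempty (L i ≃+* L j) → i = j) :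
    Finite ι ∧ Nat.card ι ≤ 4 * 32 ^ S.card := by
  rcases isEmpty_or_nonempty ι with hE | ⟨⟨i₀⟩⟩
  · exact ⟨inferInstance, by simp⟩
  set k : ℤ := ∏ q ∈ S, (q : ℤ) with hkdef
  have hk : k ≠ 0 := prod_ne_zero_iff.mpr fun p hp => Int.natCast_ne_zero.mpr (hS p hp).ne_zero
  obtain ⟨T, hTc, hT⟩ := exists_support (K := K) hK hk
  have hsub : k.natAbs.primeFactors ⊆ S := fun p hp => by
    obtain ⟨q, hq, hpq⟩ := (Prime.dvd_finsetProd_iff
      (Nat.prime_iff_prime_int.1 (Nat.prime_of_mem_primeFactors hp)) _).mp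
      (Int.natCast_dvd.mpr (Nat.dvd_of_mem_primeFactors hp))
    rw [(Nat.prime_dvd_prime_iff_eq (Nat.prime_of_mem_primeFactors hp) (hS q hq)).mp
      (Int.natCast_dvd_natCast.mp hpq)]
    exact hq
  have hdK : (discr K).natAbs.primeFactors ⊆ S := fun p hp => by
    refine hd i₀ p (Nat.prime_of_mem_primeFactors hp) (Int.natCast_dvd.mpr ?_)
    rw [natAbs_discr_tower (h2 i₀)]
    exact Dvd.dvd.mul_left ((Nat.dvd_of_mem_primeFactors hp).trans (dvd_pow_self _ two_ne_zero)) _
  choose y hy α hα hyα using fun i => exists_integral_sq_root (K := K) (h2 i)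
  have heven : ∀ i, EvenOutside T (α i) := by
    intro i
    refine ⟨hα i, fun v hv => ?_⟩
    obtain ⟨T', I, hI, hspan⟩ := FA.QuarticFieldsCount.exists_decomposition (hα i)
    have hv' : v ∉ T' := by
      intro hmem
      have hint : IsIntegral ℤ (y i) := IsIntegral.of_pow two_pos (hyα i ▸
        (RingOfIntegers.isIntegral_coe (α i)).map ((algebraMap K (L i)).toIntAlgHom))
      obtain ⟨P, hPp, hP0, hPc, hPd⟩ := FA.QuarticFieldsCount.exists_ramified_prime hI hspan
        (y := ⟨y i, hint⟩) (by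
          refine RingOfIntegers.ext ?_
          show (y i) ^ 2 = _
          rw [hyα i]
          exact (IsScalarTower.algebraMap_apply (𝓞 K) K (L i) _).symm.trans
            (IsScalarTower.algebraMap_apply (𝓞 K) (𝓞 (L i)) (L i) _)) hmem
      haveI := hPp
      set n := Ideal.absNorm P
      have hn : ((n : ℤ) : 𝓞 (L i)) ∈ P := by
        rw [Int.cast_natCast]; exact Ideal.absNorm_mem P
      obtain ⟨p, hp, hpn, hpP⟩ := FA.CubicFieldsBound.exists_prime_mem ⟨P, hPp, hP0⟩
        (Int.natCast_ne_zero.mpr (fun h => hP0 (Ideal.absNorm_eq_zero_iff.mp h))) hn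
      have hpv : (p : 𝓞 K) ∈ v.asIdeal := by
        rw [← hPc, Ideal.mem_comap, map_natCast]; exact hpP
      have hpd : (p : ℤ) ∣ discr (L i) := by
        refine Int.natCast_dvd.mpr ?_
        rw [natAbs_discr_tower (h2 i)]
        exact Dvd.dvd.mul_right ((Int.natCast_dvd_natCast.mp hpn).trans (map_dvd _ hPd)) _
      obtain ⟨c, hc⟩ : (p : ℤ) ∣ k := dvd_prod_of_mem _ (hd i p hp hpd)
      refine hT v hv ?_
      rw [hc, Int.cast_mul, Int.cast_natCast]
      exact v.asIdeal.mul_mem_right _ hpv
    have hP : (∏ w ∈ T', w.asIdeal) ≠ 0 := prod_ne_zero_iff.mpr fun w _ => w.ne_bot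
    have hI' : I ≠ 0 := hI
    rw [expo, hspan, sq, ← Associates.mk_mul_mk, ← Associates.mk_mul_mk,
      Associates.count_mul (Associates.mk_ne_zero.mpr hP)
        (mul_ne_zero (Associates.mk_ne_zero.mpr hI') (Associates.mk_ne_zero.mpr hI'))
        v.associates_irreducible,
      Associates.count_mul (Associates.mk_ne_zero.mpr hI') (Associates.mk_ne_zero.mpr hI')
        v.associates_irreducible]
    have h0 :
        (Associates.mk v.asIdeal).count (Associates.mk (∏ w ∈ T', w.asIdeal)).factors = 0 := by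
      by_contra h
      rw [← Ne, Associates.count_ne_zero_iff_dvd hP v.irreducible, Ideal.dvd_iff_le] at h
      obtain ⟨w, hw, hwv⟩ := v.isPrime.prod_le.mp h
      exact hv' (HeightOneSpectrum.ext
        ((w.isPrime.isMaximal w.ne_bot).eq_of_le v.isPrime.ne_top hwv) ▸ hw)
    rw [h0, zero_add]
    exact ⟨_, (two_mul _).symm⟩
  obtain ⟨hfin, hcard⟩ := card_classes_le_two T α heven (by
    rintro i j ⟨a, b, ha, hb, hab⟩
    refine hne i j ?_
    have ha' : (a : K) ≠ 0 := RingOfIntegers.coe_ne_zero_iff.mpr ha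
    have hb' : (b : K) ≠ 0 := RingOfIntegers.coe_ne_zero_iff.mpr hb
    have e : (α i : K) = (α j : K) * ((b : K) / a) ^ 2 := by
      have := congrArg (fun r : 𝓞 K => (r : K)) hab
      push_cast at this
      rw [div_pow, mul_div_assoc', eq_div_iff (pow_ne_zero 2 ha')]
      exact this
    have hsl : algebraMap K (L j) ((b : K) / a) ≠ 0 :=
      (_root_.map_ne_zero _).mpr (div_ne_zero hb' ha')
    refine iso_of_sq (h2 i) (h2 j) (hy i) (z := y j * algebraMap K (L j) ((b : K) / a)) ?_
      (hyα i) ?_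
    · rintro ⟨r, hr⟩
      exact hy j ⟨r / ((b : K) / a), by rw [map_div₀, hr, mul_div_cancel_right₀ _ hsl]⟩
    · rw [mul_pow, hyα j, ← map_pow, ← map_mul, e])
  refine ⟨hfin, hcard.trans ?_⟩
  have hr : Units.rank K + 1 ≤ 2 := by
    have h1 := InfinitePlace.card_add_two_mul_card_eq_rank K
    have h2 := InfinitePlace.card_eq_nrRealPlaces_add_nrComplexPlaces (K := K)
    rw [Units.rank]
    omega
  calc 2 ^ T.card * Nat.card {c : ClassGroup (𝓞 K) // c ^ 2 = 1} * 2 ^ (Units.rank K + 1)
      ≤ 2 ^ (2 ^ 2 * S.card) * 2 ^ S.card * 2 ^ 2 :=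
        Nat.mul_le_mul (Nat.mul_le_mul
          (Nat.pow_le_pow_right (by norm_num)
            (hTc.trans (Nat.mul_le_mul_left _ (card_le_card hsub))))
          ((card_two_torsion_quadratic K hK).trans
            (Nat.pow_le_pow_right (by norm_num) (card_le_card hdK))))
          (Nat.pow_le_pow_right (by norm_num) hr)
    _ = _ := by rw [pow_mul, ← mul_pow]; norm_num; ring

/-- **Quartic fields with a quadratic subfield ramified only in `S`.** -/
theorem quadratic_subfield_le {S : Finset ℕ} (hS : ∀ p ∈ S, p.Prime) (ι : Type) (L : ι → Type)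
    [∀ i, Field (L i)] [∀ i, NumberField (L i)] (h4 : ∀ i, finrank ℚ (L i) = 4)
    (hk : ∀ i, ∃ k : IntermediateField ℚ (L i), finrank ℚ k = 2)
    (hd : ∀ i, ∀ p : ℕ, p.Prime → (p : ℤ) ∣ discr (L i) → p ∈ S)
    (hne : ∀ i j, Nonempty (L i ≃+* L j) → i = j) :
    Finite ι ∧ Nat.card ι ≤ 32 * 64 ^ S.card := by
  choose k hk using hk
  have h2 : ∀ i, finrank (k i) (L i) = 2 := fun i => by
    have := Module.finrank_mul_finrank ℚ (k i) (L i)
    rw [hk i, h4 i] at this
    omega
  choose g m hgm hm using fun i => FA.CubicFieldsBound.exists_squareClass (S := S)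
    (d := discr (k i)) fun p hp hpd => hd i p hp (Int.natCast_dvd.mpr (by
      rw [natAbs_discr_tower (h2 i)]
      exact Dvd.dvd.mul_left ((Int.natCast_dvd.mp hpd).trans (dvd_pow_self _ two_ne_zero)) _))
  have hfib : ∀ M : ℤ, Finite {i // m i = M} ∧
      Nat.card {i // m i = M} ≤ 4 * 32 ^ S.card := by
    intro M
    rcases isEmpty_or_nonempty {i // m i = M} with hE | ⟨i₀, hi₀⟩
    · exact ⟨inferInstance, by simp⟩
    have he : ∀ i : {i // m i = M}, Nonempty (k i₀ ≃+* k i.1) := fun i =>
      iso_of_class (hk i₀) (hk i.1) (m := M) (hi₀ ▸ hgm i₀) (by rw [hgm i.1, i.2])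
    letI : ∀ i : {i // m i = M}, Algebra (k i₀) (L i.1) := fun i =>
      (((k i.1).val : (k i.1) →+* L i.1).comp (he i).some.toRingHom).toAlgebra
    refine extensions_le_ramified hS (k i₀) (hk i₀) (fun i : {i // m i = M} => L i.1) (fun i => ?_)
      (fun i => hd i.1) fun i j e => Subtype.ext (hne _ _ e)
    have := Module.finrank_mul_finrank ℚ (k i₀) (L i.1)
    rw [hk i₀, h4 i.1] at this
    omega
  haveI : ∀ M : FA.CubicFieldsBound.squareClasses S, Finite {i // m i = (M : ℤ)} :=
    fun M => (hfib M).1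
  let e : (Σ M : FA.CubicFieldsBound.squareClasses S, {i // m i = (M : ℤ)}) ≃ ι :=
    { toFun := fun x => x.2.1
      invFun := fun i => ⟨⟨m i, hm i⟩, i, rfl⟩
      left_inv := fun x => Sigma.subtype_ext (Subtype.ext x.2.2) rfl
      right_inv := fun i => rfl }
  refine ⟨Finite.of_equiv _ e, ?_⟩
  rw [← Nat.card_congr e, Nat.card_sigma]
  refine (sum_le_card_nsmul (univ : Finset (FA.CubicFieldsBound.squareClasses S))
    (fun M => Nat.card {i // m i = (M : ℤ)}) _ fun M _ => (hfib (M : ℤ)).2).trans ?_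
  rw [card_univ, Fintype.card_coe, smul_eq_mul]
  refine (Nat.mul_le_mul_right _ (FA.CubicFieldsBound.card_squareClasses S)).trans (le_of_eq ?_)
  rw [show (64 : ℕ) = 2 * 32 by norm_num, mul_pow, pow_add]; ring

end FA.QuarticResolvent
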