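import Fermat.Agent.QuarticResolvent.Depressed
import Fermat.Agent.CubicFieldsBound.Resolvent

/-!
# The resolvent field and the class of the resolvent root

Let `φ` generate the cubic field `K` as a root of the resolvent. Another generator multiplies `φ`
by a square of `K`, so at a prime outside `6` and the discriminant the exponents of `φ` are even;
and the class of `φ` up to squares determines the quartic field.
-/

set_option autoImplicit false
set_option linter.style.haveILetI false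

noncomputable section

open NumberField Module Finset Polynomial IsDedekindDomain
open FA.Monogenic (Covers)
open FA.BrumerSilverman (expo expo_mul expo_ne_zero_iff)
open scoped Classical IntermediateField

namespace FA.QuarticResolvent

variable {L : Type} [Field L] [NumberField L] {K : Type} [Field K] [NumberField K]

theorem res_irrat {D : Depressed L} (hR : D.NoRatRoot) {φ : K} (hφ : D.IsRes φ) (u : ℚ) :
    (u : K) ≠ φ := by
  rintro rfl
  refine hR u ?_
  have h : resEval (D.p : K) D.q D.r (u : K) = 0 := hφ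
  unfold resEval at h
  show resEval (D.p : ℚ) D.q D.r u = 0
  unfold resEval
  exact_mod_cast h

theorem cubic_gen (hK : finrank ℚ K = 3) {φ : K} (hirr : ∀ u : ℚ, (u : K) ≠ φ)
    {f g : K →ₐ[ℚ] ℂ} (h : f φ = g φ) : f = g := by
  refine AlgHom.ext_of_adjoin_eq_top (s := {φ}) ?_ (by simpa using h)
  rw [← IntermediateField.adjoin_simple_toSubalgebra_of_isAlgebraic
    (Algebra.IsAlgebraic.isAlgebraic φ), (FA.CubicFieldsBound.natDegree_minpoly hK hirr).1,
    IntermediateField.top_toSubalgebra]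

theorem exists_coords_three (hK : finrank ℚ K = 3) {φ : K} (hirr : ∀ u : ℚ, (u : K) ≠ φ) (y : K) :
    ∃ a b c : ℚ, y = (a : K) + (b : K) * φ + (c : K) * φ ^ 2 := by
  obtain ⟨htop, hdeg⟩ := FA.CubicFieldsBound.natDegree_minpoly hK hirr
  have hint : IsIntegral ℚ φ := IsIntegral.of_finite ℚ _
  have hy : y ∈ Algebra.adjoin ℚ {φ} := by
    rw [← IntermediateField.adjoin_simple_toSubalgebra_of_isAlgebraic
      (Algebra.IsAlgebraic.isAlgebraic φ), htop]
    trivial
  rw [Algebra.adjoin_singleton_eq_range_aeval] at hy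
  obtain ⟨P, rfl⟩ := (AlgHom.mem_range _).mp hy
  set Q := P %ₘ minpoly ℚ φ
  have hQ : aeval φ Q = aeval φ P := by
    conv_rhs => rw [← modByMonic_add_div P (minpoly ℚ φ)]
    simp [Q, minpoly.aeval]
  have hlt : Q.natDegree < 3 := hdeg ▸ natDegree_modByMonic_lt P (minpoly.monic hint)
    (minpoly.ne_one ℚ φ)
  refine ⟨Q.coeff 0, Q.coeff 1, Q.coeff 2, ?_⟩
  rw [← hQ, aeval_eq_sum_range' hlt, sum_range_succ, sum_range_succ, sum_range_succ,
    sum_range_zero]
  simp [Rat.smul_def]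

/-- The embeddings of the resolvent field, numbered by the pairs of roots. -/
theorem exists_cubic_embeddings (D : Depressed L) (hn : finrank ℚ L = 4) (hR : D.NoRatRoot)
    (hK : finrank ℚ K = 3) {φ : K} (hφ : D.IsRes φ) (e : Fin 4 ≃ (L →ₐ[ℚ] ℂ)) :
    ∃ eK : Fin 3 ≃ (K →ₐ[ℚ] ℂ),
      ∀ i, eK i φ = QuadRoots.val (fun j => e j D.θ) i.succ := by
  set x := fun j => e j D.θ
  have hr : QuadRoots (D.p : ℂ) D.q D.r x := D.quadRoots hn e
  obtain ⟨ε⟩ := exists_embeddings K hK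
  have hinj : Function.Injective fun k => ε k φ :=
    fun k l h => ε.injective (cubic_gen hK (res_irrat hR hφ) h)
  set Z : Finset ℂ := univ.image fun i : Fin 3 => QuadRoots.val x i.succ
  have hsub : (univ.image fun k => ε k φ) ⊆ Z := by
    intro w hw
    obtain ⟨k, -, rfl⟩ := mem_image.mp hw
    have h : resEval (D.p : ℂ) D.q D.r (ε k φ) = 0 := Depressed.IsRes.map (ε k).toRingHom hφ
    rw [hr.resEval_eq] at h
    rcases mul_eq_zero.mp h with h | h
    · rcases mul_eq_zero.mp h with h | h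
      · exact mem_image.mpr ⟨0, mem_univ _, (sub_eq_zero.mp h).symm⟩
      · exact mem_image.mpr ⟨1, mem_univ _, (sub_eq_zero.mp h).symm⟩
    · exact mem_image.mpr ⟨2, mem_univ _, (sub_eq_zero.mp h).symm⟩
  have heq := eq_of_subset_of_card_le hsub (by
    rw [card_image_of_injective _ hinj]; exact card_image_le)
  have hmem : ∀ i : Fin 3, ∃ k, ε k φ = QuadRoots.val x i.succ := fun i => by
    have : QuadRoots.val x i.succ ∈ Z := mem_image.mpr ⟨i, mem_univ _, rfl⟩
    rw [← heq] at this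
    obtain ⟨k, -, hk⟩ := mem_image.mp this
    exact ⟨k, hk⟩
  choose k hk using hmem
  have hvinj : Function.Injective fun i : Fin 3 => QuadRoots.val x i.succ := by
    obtain ⟨h1, h2, h3⟩ := hr.val_ne
    intro i j h
    fin_cases i <;> fin_cases j <;> simp_all [eq_comm]
  have hkinj : Function.Injective k := fun i j h => hvinj (by
    show QuadRoots.val x i.succ = QuadRoots.val x j.succ
    rw [← hk, ← hk, h])
  exact ⟨(Equiv.ofBijective k hkinj.bijective_of_finite).trans ε, hk⟩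

theorem res_integral {D : Depressed L} {φ : K} (hφ : D.IsRes φ) : IsIntegral ℤ φ := by
  refine ⟨Polynomial.X ^ 3 + C (2 * D.p) * Polynomial.X ^ 2 +
    C (D.p ^ 2 - 4 * D.r) * Polynomial.X + C (-D.q ^ 2), by monicity!, ?_⟩
  have h : resEval (D.p : K) D.q D.r φ = 0 := hφ
  unfold resEval at h
  rw [← aeval_def]
  simp [map_ofNat]
  linear_combination h

/-- **The discriminant of the resolvent is that of its field times a square.** -/
theorem disc_eq_cubic (D : Depressed L) (hn : finrank ℚ L = 4) (hR : D.NoRatRoot)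
    (hK : finrank ℚ K = 3) {φ : K} (hφ : D.IsRes φ) :
    ∃ m : ℤ, m ≠ 0 ∧ D.disc = m ^ 2 * discr K := by
  obtain ⟨e⟩ := exists_embeddings L hn
  obtain ⟨eK, heK⟩ := exists_cubic_embeddings D hn hR hK hφ e
  have hr := D.quadRoots hn e
  obtain ⟨m, hm, -⟩ := exists_index K hK ⟨φ, res_integral hφ⟩ eK
  have hdet : (Matrix.vandermonde fun i => eK i φ).det ^ 2 =
      cubicDisc (2 * (D.p : ℂ)) ((D.p : ℂ) ^ 2 - 4 * D.r) (-(D.q : ℂ) ^ 2) := by
    rw [hr.cubicDisc_eq, ← neg_sq ((_ : ℂ) * _), ← hr.prod_val, Matrix.det_fin_three]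
    simp only [Matrix.vandermonde, Matrix.of_apply, heK]
    simp [Fin.succ]
    ring
  replace hm : (Matrix.vandermonde fun i => eK i φ).det ^ 2 = (m : ℂ) ^ 2 * (discr K : ℂ) := hm
  rw [hdet] at hm
  refine ⟨m, ?_, Int.cast_injective (α := ℂ) ?_⟩
  · rintro rfl
    rw [hr.cubicDisc_eq, Int.cast_zero, zero_pow two_ne_zero, zero_mul] at hm
    revert hm
    simp only [pow_eq_zero_iff two_ne_zero, mul_eq_zero, sub_eq_zero, hr.inj.eq_iff]
    decide
  · rw [Int.cast_mul, Int.cast_pow, ← hm, Depressed.disc]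
    simp [cubicDisc]

/-- **Another generator multiplies the resolvent root by a square.** -/
theorem exists_transfer (D D' : Depressed L) (hn : finrank ℚ L = 4) (hR : D.NoRatRoot)
    (hK : finrank ℚ K = 3) {φ : K} (hφ : D.IsRes φ) : ∃ g : K, D'.IsRes (φ * g ^ 2) := by
  obtain ⟨e⟩ := exists_embeddings L hn
  obtain ⟨a, b, c, d, hy⟩ := D.exists_coords hn D'.θ
  set x := fun j => e j D.θ
  have hr : QuadRoots (D.p : ℂ) D.q D.r x := D.quadRoots hn e
  have hr' := D'.quadRoots hn e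
  have hval : ∀ j, e j D'.θ = (a : ℂ) + b * x j + c * x j ^ 2 + d * x j ^ 3 := fun j => by
    rw [hy]; simp [x]
  have htr : 4 * (a : ℂ) - 2 * c * D.p - 3 * d * D.q = 0 := by
    have h := hr'.sum_eq
    simp only [hval] at h
    obtain ⟨hp, hq, -⟩ := hr.coeff_eq
    have e3 : x 3 = -(x 0 + x 1 + x 2) := by linear_combination hr.sum_eq
    rw [e3] at h hp hq
    linear_combination h - 2 * (c : ℂ) * hp - 3 * (d : ℂ) * hq
  set g : K := (b : K) - (c : K) * (D.q : K) / φ - (d : K) * (φ + 3 * (D.p : K)) / 2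
  refine ⟨g, ?_⟩
  obtain ⟨eK, heK⟩ := exists_cubic_embeddings D hn hR hK hφ e
  obtain ⟨π, hπ⟩ := QuadRoots.exists_perm (x := x) (show (1 : Fin 4) ≠ 0 by decide)
  set ψ := eK 0
  have hz : ψ φ = ((x ∘ π) 0 + (x ∘ π) 1) ^ 2 := (heK 0).trans hπ
  have hφ0 : φ ≠ 0 := fun h => res_irrat hR hφ 0 (by rw [h]; simp)
  have hψ0 : ψ φ ≠ 0 := (map_ne_zero ψ).mpr hφ0
  have key := (hr.perm π).transfer (a := (a : ℂ)) (b := (b : ℂ)) (c := (c : ℂ)) (d := (d : ℂ))
    hz hψ0 htr
  simp only [Function.comp_apply] at key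
  rw [← hval, ← hval] at key
  have hres := (hr'.perm π).resEval_val (show (1 : Fin 4) ≠ 0 by decide)
  simp only [QuadRoots.val, Function.comp_apply] at hres
  have himg : ψ (φ * g ^ 2) = (e (π 0) D'.θ + e (π 1) D'.θ) ^ 2 := by
    rw [key]
    simp [g, map_ofNat]
  rw [← himg] at hres
  refine ψ.toRingHom.injective ?_
  rw [map_zero]
  show ψ _ = 0
  unfold resEval at hres ⊢
  simpa [map_ofNat] using hres

/-- **Even exponents away from the discriminant of the resolvent.** -/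
theorem even_expo (D : Depressed L) (hR : D.NoRatRoot) {φ : 𝓞 K} (hφ : D.IsRes φ)
    {v : HeightOneSpectrum (𝓞 K)} {ℓ : ℕ} (hℓ : ℓ.Prime) (hv : (ℓ : 𝓞 K) ∈ v.asIdeal)
    (hd : ¬ (ℓ : ℤ) ∣ D.disc) : 2 ∣ expo v φ := by
  have hq : (D.q : 𝓞 K) ≠ 0 := fun h => hR 0 (by
    have : (D.q : ℤ) = 0 := Int.cast_eq_zero.mp h
    simp [Depressed.IsRes, resEval, this])
  have h0 : resEval (D.p : 𝓞 K) D.q D.r φ = 0 := hφ
  unfold resEval at h0
  set φ' := φ ^ 2 + 2 * (D.p : 𝓞 K) * φ + (D.p : 𝓞 K) ^ 2 - 4 * (D.r : 𝓞 K)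
  have e : φ * φ' = (D.q : 𝓞 K) * (D.q : 𝓞 K) := by
    simp only [φ']; linear_combination h0
  have hne : φ * φ' ≠ 0 := e ▸ mul_ne_zero hq hq
  have hsum := congrArg (expo v) e
  rw [expo_mul v (left_ne_zero_of_mul hne) (right_ne_zero_of_mul hne), expo_mul v hq hq] at hsum
  by_cases hz : expo v φ = 0
  · rw [hz]; exact dvd_zero 2
  have hφ' : expo v φ' = 0 := by
    by_contra h'
    have m1 := (expo_ne_zero_iff v (left_ne_zero_of_mul hne)).mp hz
    have m2 := (expo_ne_zero_iff v (right_ne_zero_of_mul hne)).mp h'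
    have hu : 3 * φ ^ 2 + 4 * (D.p : 𝓞 K) * φ + (D.p : 𝓞 K) ^ 2 - 4 * (D.r : 𝓞 K) ∈ v.asIdeal := by
      have := v.asIdeal.add_mem m2 (v.asIdeal.mul_mem_left (2 * (φ + (D.p : 𝓞 K))) m1)
      convert this using 1
      simp only [φ']; ring
    have hdisc : (D.disc : 𝓞 K) ∈ v.asIdeal := by
      have e' : (D.disc : 𝓞 K) =
          (3 * φ ^ 2 + 4 * (D.p : 𝓞 K) * φ + (D.p : 𝓞 K) ^ 2 - 4 * (D.r : 𝓞 K)) *
            ((3 * φ ^ 2 + 4 * (D.p : 𝓞 K) * φ + (D.p : 𝓞 K) ^ 2 - 4 * (D.r : 𝓞 K)) *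
            ((2 * (D.p : 𝓞 K)) ^ 2 - 4 * ((D.p : 𝓞 K) ^ 2 - 4 * D.r) -
              2 * (2 * (D.p : 𝓞 K)) * φ - 3 * φ ^ 2)) := by
        simp only [Depressed.disc, cubicDisc]
        push_cast
        linear_combination (-4 * (2 * (D.p : 𝓞 K)) ^ 3 +
          18 * (2 * (D.p : 𝓞 K)) * ((D.p : 𝓞 K) ^ 2 - 4 * D.r) -
          27 * (-(D.q : 𝓞 K) ^ 2 - φ ^ 3 - 2 * (D.p : 𝓞 K) * φ ^ 2 -
            ((D.p : 𝓞 K) ^ 2 - 4 * D.r) * φ)) * h0
      rw [e']
      exact v.asIdeal.mul_mem_right _ hu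
    obtain ⟨a, b, hab⟩ := (Nat.prime_iff_prime_int.mp hℓ).coprime_iff_not_dvd.mpr hd
    refine v.isPrime.ne_top ((Ideal.eq_top_iff_one _).mpr ?_)
    rw [show (1 : 𝓞 K) = (a : 𝓞 K) * (ℓ : 𝓞 K) + (b : 𝓞 K) * (D.disc : 𝓞 K) by
      rw [← Int.cast_natCast ℓ, ← Int.cast_mul, ← Int.cast_mul, ← Int.cast_add, hab, Int.cast_one]]
    exact v.asIdeal.add_mem (v.asIdeal.mul_mem_left _ hv) (v.asIdeal.mul_mem_left _ hdisc)
  rw [hφ', add_zero] at hsum
  omega

/-- A square factor does not change the parity of the exponent. -/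
theorem expo_parity {φ φ' : 𝓞 K} (hφ : φ ≠ 0) (hφ' : φ' ≠ 0) (g : K)
    (h : (φ' : K) = (φ : K) * g ^ 2) (v : HeightOneSpectrum (𝓞 K)) (h2 : 2 ∣ expo v φ') :
    2 ∣ expo v φ := by
  obtain ⟨a, s, hs, hg⟩ := IsFractionRing.div_surjective (A := 𝓞 K) g
  have hs0 : s ≠ 0 := nonZeroDivisors.ne_zero hs
  have e : φ' * (s * s) = φ * (a * a) := by
    refine RingOfIntegers.coe_injective ?_
    simp only [map_mul]
    rw [show algebraMap (𝓞 K) K φ' = algebraMap (𝓞 K) K φ * g ^ 2 from h, ← hg]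
    have : algebraMap (𝓞 K) K s ≠ 0 := RingOfIntegers.coe_ne_zero_iff.mpr hs0
    field_simp
  have ha : a ≠ 0 := fun h0 => mul_ne_zero hφ' (mul_ne_zero hs0 hs0) (by rw [e, h0]; ring)
  have := congrArg (expo v) e
  rw [expo_mul v hφ' (mul_ne_zero hs0 hs0), expo_mul v hs0 hs0,
    expo_mul v hφ (mul_ne_zero ha ha), expo_mul v ha ha] at this
  omega

/-- **The class of the resolvent root determines the quartic field.** -/
theorem descent_class_iso {L' : Type} [Field L'] [NumberField L'] (D : Depressed L)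
    (D' : Depressed L') (hn : finrank ℚ L = 4) (hn' : finrank ℚ L' = 4) (hR : D.NoRatRoot)
    (hR' : D'.NoRatRoot) (hK : finrank ℚ K = 3) {φ φ' w : K} (hφ : D.IsRes φ)
    (hφ' : D'.IsRes φ') (hw : φ' = φ * w ^ 2) : Nonempty (L' ≃+* L) := by
  obtain ⟨e⟩ := exists_embeddings L hn
  set x := fun j => e j D.θ
  have hr : QuadRoots (D.p : ℂ) D.q D.r x := D.quadRoots hn e
  obtain ⟨eK, heK⟩ := exists_cubic_embeddings D hn hR hK hφ e
  obtain ⟨a, b, c, hwc⟩ := exists_coords_three hK (res_irrat hR hφ) w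
  let s : Fin 3 → ℂ := fun i => eK i w * (x 0 + x i.succ)
  have hs2 : ∀ i, s i ^ 2 = eK i φ' := fun i => by
    rw [hw, map_mul, map_pow, heK i]
    simp only [s, QuadRoots.val]
    ring
  have hres : ∀ i, resEval (D'.p : ℂ) D'.q D'.r (s i ^ 2) = 0 := fun i =>
    hs2 i ▸ Depressed.IsRes.map (eK i).toRingHom hφ'
  have hdist : ∀ i j, i ≠ j → s i ^ 2 ≠ s j ^ 2 := fun i j h he => h (eK.injective
    (cubic_gen hK (res_irrat hR' hφ') (by rw [← hs2, ← hs2, he])))
  obtain ⟨ε, hε, hroot⟩ := root_of_square_roots (hdist 0 1 (by decide)) (hdist 0 2 (by decide))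
    (hdist 1 2 (by decide)) (hres 0) (hres 1) (hres 2)
  set t : L := (ε : L) * ((a : L) * (2 * D.θ) +
      (b : L) * (-4 * D.θ ^ 3 - 6 * (D.p : L) * D.θ - 3 * (D.q : L)) +
      (c : L) * (32 * D.θ ^ 5 - 40 * D.θ ^ 3 * (2 * D.θ ^ 2 + (D.p : L)) -
        20 * D.θ ^ 2 * (D.q : L) + 10 * D.θ * (2 * D.θ ^ 2 + (D.p : L)) ^ 2 +
        5 * (D.q : L) * (2 * D.θ ^ 2 + (D.p : L)))) / 2
  have ht : e 0 t = (ε : ℂ) * (s 0 + s 1 + s 2) / 2 := by
    obtain ⟨P1, P3, P5⟩ := hr.power_sums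
    have hsum : s 0 + s 1 + s 2 = (a : ℂ) * (2 * x 0) +
        (b : ℂ) * (-4 * x 0 ^ 3 - 6 * (D.p : ℂ) * x 0 - 3 * D.q) +
        (c : ℂ) * (32 * x 0 ^ 5 - 40 * x 0 ^ 3 * (2 * x 0 ^ 2 + (D.p : ℂ)) -
          20 * x 0 ^ 2 * D.q + 10 * x 0 * (2 * x 0 ^ 2 + (D.p : ℂ)) ^ 2 +
          5 * (D.q : ℂ) * (2 * x 0 ^ 2 + (D.p : ℂ))) := by
      rw [← P1, ← P3, ← P5]
      simp only [s, hwc, map_add, map_mul, map_pow, map_ratCast, heK, QuadRoots.val]
      rw [show (0 : Fin 3).succ = (1 : Fin 4) from rfl,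
        show (1 : Fin 3).succ = (2 : Fin 4) from rfl,
        show (2 : Fin 3).succ = (3 : Fin 4) from rfl]
      ring
    rw [hsum]
    simp [t, x, map_ofNat]
  have hroot' : t ^ 4 + (D'.p : L) * t ^ 2 + (D'.q : L) * t + (D'.r : L) = 0 := by
    refine (e 0).toRingHom.injective ?_
    show (e 0) _ = (e 0) (0 : L)
    rw [map_zero (e 0), ← hroot, ← ht]
    simp
  have hint : IsIntegral ℚ D'.θ := IsIntegral.of_finite ℚ _
  set f : ℚ[X] := Polynomial.X ^ 4 + C (D'.p : ℚ) * Polynomial.X ^ 2 +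
    C (D'.q : ℚ) * Polynomial.X + C (D'.r : ℚ) with hf
  have hfm : f.Monic := by simp only [f]; monicity!
  have hmin : minpoly ℚ D'.θ = f :=
    (Polynomial.eq_of_monic_of_dvd_of_natDegree_le (minpoly.monic hint) hfm
      (minpoly.dvd ℚ _ (by simpa [f] using D'.root))
      (by rw [D'.deg]; simp only [f]; compute_degree)).symm
  set pb := (IntermediateField.adjoin.powerBasis hint).map
    ((IntermediateField.equivOfEq (D'.gen_eq_top hn')).trans IntermediateField.topEquiv)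
  have hgen : pb.gen = D'.θ := by simp [pb]
  set φL : L' →ₐ[ℚ] L := pb.lift t (by rw [hgen, hmin]; simpa [f] using hroot')
  have hbij : Function.Bijective φL := ⟨φL.toRingHom.injective,
    (LinearMap.injective_iff_surjective_of_finrank_eq_finrank (f := φL.toLinearMap)
      (by rw [hn, hn'])).mp φL.toRingHom.injective⟩
  exact ⟨(AlgEquiv.ofBijective φL hbij).toRingEquiv⟩

end FA.QuarticResolvent
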