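import Fermat.Agent.QuarticResolvent.CubicExponent
import Fermat.Agent.QuarticResolvent.Resolvent
import Fermat.Agent.QuarticResolvent.Quadratic

/-!
# The descent against the two-torsion of the resolvent fields

The quartic fields without quadratic subfield ramified only in `S` fall by their resolvent fields;
in one fibre the resolvent roots have even exponents outside `6` and `S`, and their classes up to
squares are bounded by the two-torsion of the resolvent field.
-/

set_option autoImplicit false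
set_option linter.style.haveILetI false

noncomputable section

open NumberField Module Finset IsDedekindDomain Polynomial
open FA.BrumerSilverman (withSix card_withSix_le)
open FA.TwoSelmerBound (EvenOutside card_classes_le_two exists_support)
open scoped Classical IntermediateField

namespace FA.QuarticResolvent

variable {L : Type} [Field L] [NumberField L]

/-- A field holding a root of the resolvent. -/
theorem exists_cubic_field (D : Depressed L) (hn : finrank ℚ L = 4) (hR : D.NoRatRoot) :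
    ∃ (K : IntermediateField ℚ ℂ) (_ : NumberField K), finrank ℚ K = 3 ∧ ∃ φ : K, D.IsRes φ := by
  obtain ⟨e⟩ := exists_embeddings L hn
  have hr := D.quadRoots hn e
  set z : ℂ := QuadRoots.val (fun j => e j D.θ) 1
  have hz : D.IsRes z := hr.resEval_val (show (1 : Fin 4) ≠ 0 by decide)
  set f : ℚ[X] := X ^ 3 + C (2 * (D.p : ℚ)) * X ^ 2 + C ((D.p : ℚ) ^ 2 - 4 * D.r) * X +
    C (-(D.q : ℚ) ^ 2) with hfdef
  have hfm : f.Monic := by simp only [f]; monicity!
  have hfd : f.natDegree = 3 := by simp only [f]; compute_degree!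
  have hz' : aeval z f = 0 := by
    have h : resEval (D.p : ℂ) D.q D.r z = 0 := hz
    unfold resEval at h
    simp [f, map_ofNat]
    linear_combination h
  have hirr : Irreducible f := by
    rw [irreducible_iff_roots_eq_zero_of_degree_le_three (by omega) (by omega)]
    refine Multiset.eq_zero_of_forall_notMem fun u hu => hR u ?_
    have h0 := (mem_roots hfm.ne_zero).mp hu
    simp [f, IsRoot] at h0
    show resEval (D.p : ℚ) D.q D.r u = 0
    unfold resEval
    linear_combination h0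
  have hint : IsIntegral ℚ z := ⟨f, hfm, by rw [← aeval_def]; exact hz'⟩
  haveI hfd' : FiniteDimensional ℚ ℚ⟮z⟯ := IntermediateField.adjoin.finiteDimensional hint
  haveI hnf : NumberField ℚ⟮z⟯ := @NumberField.mk _ _ inferInstance hfd'
  refine ⟨ℚ⟮z⟯, hnf, ?_, ⟨z, IntermediateField.mem_adjoin_simple_self ℚ z⟩, ?_⟩
  · rw [IntermediateField.adjoin.finrank hint,
      ← minpoly.eq_of_irreducible_of_monic hirr hz' hfm, hfd]
  · refine (ℚ⟮z⟯.val).toRingHom.injective ?_
    rw [map_zero]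
    have h : resEval (D.p : ℂ) D.q D.r z = 0 := hz
    unfold resEval at h ⊢
    simp only [map_add, map_sub, map_mul, map_pow, map_intCast, map_ofNat]
    exact h

variable {K : Type} [Field K] [NumberField K]

/-- The discriminant of the resolvent field against that of the quartic field. -/
theorem resolvent_discr (D : Depressed L) (hn : finrank ℚ L = 4) (hR : D.NoRatRoot)
    (hk : ∀ k : IntermediateField ℚ L, finrank ℚ k ≠ 2) (hK : finrank ℚ K = 3) {φ : K}
    (hφ : D.IsRes φ) :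
    (∀ p k : ℕ, p.Prime → 5 ≤ p → (p : ℤ) ^ k ∣ discr K → (p : ℤ) ^ k ∣ discr L) ∧
      IsSquare (discr K * discr L) := by
  constructor
  · intro p k hp h5 hpk
    obtain ⟨D', θ, hθ, hc⟩ := exists_local hn hp (show 4 ≤ p by omega)
    obtain ⟨g, hg⟩ := exists_transfer D D' hn hR hK hφ
    obtain ⟨m, -, hm, hcov⟩ := D'.disc_eq hn θ hθ
    obtain ⟨m', -, hm'⟩ := disc_eq_cubic D' hn (D'.noRatRoot hk) hK hg
    have hdvd : (p : ℤ) ^ k ∣ m ^ 2 * discr L := by
      rw [← hm, hm']; exact Dvd.dvd.mul_left hpk _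
    exact (Nat.prime_iff_prime_int.mp hp).pow_dvd_of_dvd_mul_left k
      (fun h => hcov p hp hc ((Nat.prime_iff_prime_int.mp hp).dvd_of_dvd_pow h)) hdvd
  · obtain ⟨m', hm'0, hm'⟩ := disc_eq_cubic D hn hR hK hφ
    obtain ⟨θ, hθ⟩ : ∃ θ : 𝓞 L, (θ : L) = D.θ := by
      refine ⟨⟨D.θ, ⟨X ^ 4 + C D.p * X ^ 2 + C D.q * X + C D.r, by monicity!, ?_⟩⟩, rfl⟩
      rw [← aeval_def]
      simpa using D.root
    obtain ⟨m, -, hm, -⟩ := D.disc_eq hn θ hθ
    have e : m' ^ 2 * (discr K * discr L) = (m * discr L) ^ 2 := by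
      rw [hm'] at hm
      linear_combination discr L * hm
    obtain ⟨c, hc⟩ : m' ∣ m * discr L :=
      (Int.pow_dvd_pow_iff two_ne_zero).mp ⟨_, e.symm⟩
    refine ⟨c, mul_left_cancel₀ (pow_ne_zero 2 hm'0) ?_⟩
    rw [e, hc]; ring

/-- The resolvent root is admissible. -/
theorem evenOutside_resolvent {S : Finset ℕ} (D : Depressed L) (hn : finrank ℚ L = 4)
    (hk : ∀ k : IntermediateField ℚ L, finrank ℚ k ≠ 2) (hK : finrank ℚ K = 3) {φ : 𝓞 K}
    (hφ : D.IsRes (φ : K)) (hd : ∀ p : ℕ, p.Prime → (p : ℤ) ∣ discr L → p ∈ S)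
    {T : Finset (HeightOneSpectrum (𝓞 K))}
    (hT : ∀ v ∉ T, ((∏ q ∈ withSix S, (q : ℤ) : ℤ) : 𝓞 K) ∉ v.asIdeal) :
    EvenOutside T φ := by
  have hR := D.noRatRoot hk
  have hφ0 : φ ≠ 0 := fun h => res_irrat hR hφ 0 (by rw [h]; simp)
  refine ⟨hφ0, fun v hv => ?_⟩
  obtain ⟨P, hP⟩ : ∃ P, P = Ideal.absNorm v.asIdeal := ⟨_, rfl⟩
  have hP0 : P ≠ 0 := hP ▸ fun h => v.ne_bot (Ideal.absNorm_eq_zero_iff.mp h)
  obtain ⟨p, hp, -, hpv⟩ := FA.CubicFieldsBound.exists_prime_mem v (n := (P : ℤ))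
    (Int.natCast_ne_zero.mpr hP0) (by rw [Int.cast_natCast, hP]; exact Ideal.absNorm_mem _)
  have hpS : p ∉ withSix S := fun h => by
    obtain ⟨c, hc⟩ : (p : ℤ) ∣ ∏ q ∈ withSix S, (q : ℤ) := dvd_prod_of_mem _ h
    refine hT v hv ?_
    rw [hc, Int.cast_mul, Int.cast_natCast]
    exact v.asIdeal.mul_mem_right _ hpv
  have h5 : 5 ≤ p := by
    have h2 : p ≠ 2 := fun e => hpS (by simp [e, withSix])
    have h3 : p ≠ 3 := fun e => hpS (by simp [e, withSix])
    have h4 : p ≠ 4 := fun e => by subst e; norm_num at hp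
    have := hp.two_le
    omega
  obtain ⟨D', θ, hθ, hc⟩ := exists_local hn hp (show 4 ≤ p by omega)
  obtain ⟨g, hg⟩ := exists_transfer D D' hn hR hK hφ
  obtain ⟨m, -, hm, hcov⟩ := D'.disc_eq hn θ hθ
  have hR' := D'.noRatRoot hk
  set φ' : 𝓞 K := ⟨(φ : K) * g ^ 2, res_integral hg⟩
  have hφ' : φ' ≠ 0 := fun h => res_irrat hR' hg 0 (by
    rw [show (φ : K) * g ^ 2 = (φ' : K) from rfl, h]; simp)
  have hres : D'.IsRes φ' := by
    refine RingOfIntegers.coe_injective ?_
    have h : resEval (D'.p : K) D'.q D'.r ((φ : K) * g ^ 2) = 0 := hg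
    unfold resEval at h ⊢
    simpa [φ', map_ofNat] using h
  refine expo_parity hφ0 hφ' g rfl v (even_expo D' hR' hres hp hpv ?_)
  rw [hm]
  intro h
  rcases (Nat.prime_iff_prime_int.mp hp).dvd_or_dvd h with h | h
  · exact hcov p hp hc ((Nat.prime_iff_prime_int.mp hp).dvd_of_dvd_pow h)
  · exact hpS (mem_union_left _ (hd p hp h))

/-- **The fields of one resolvent against its two-torsion.** -/
theorem fields_le_of_resolvent {S : Finset ℕ} (hS : ∀ p ∈ S, p.Prime) (K : Type) [Field K]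
    [NumberField K] (hK : finrank ℚ K = 3) {ι : Type*} (L : ι → Type) [∀ i, Field (L i)]
    [∀ i, NumberField (L i)] (h4 : ∀ i, finrank ℚ (L i) = 4)
    (hk : ∀ i, ∀ k : IntermediateField ℚ (L i), finrank ℚ k ≠ 2)
    (hd : ∀ i, ∀ p : ℕ, p.Prime → (p : ℤ) ∣ discr (L i) → p ∈ S)
    (D : ∀ i, Depressed (L i)) (hφ : ∀ i, ∃ φ : K, (D i).IsRes φ)
    (hne : ∀ i j, Nonempty (L i ≃+* L j) → i = j) :
    Finite ι ∧ Nat.card ι ≤
      8 * 256 ^ (S.card + 2) * Nat.card {c : ClassGroup (𝓞 K) // c ^ 2 = 1} := by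
  choose φ hφ using hφ
  set k : ℤ := ∏ q ∈ withSix S, (q : ℤ) with hkdef
  have hk0 : k ≠ 0 := prod_ne_zero_iff.mpr fun p hp =>
    Int.natCast_ne_zero.mpr (FA.CubicFieldsBound.prime_of_mem_withSix hS hp).ne_zero
  obtain ⟨T, hTc, hT⟩ := exists_support (K := K) hK hk0
  have hsub : k.natAbs.primeFactors ⊆ withSix S := fun p hp => by
    obtain ⟨q, hq, hpq⟩ := (Prime.dvd_finsetProd_iff
      (Nat.prime_iff_prime_int.1 (Nat.prime_of_mem_primeFactors hp)) _).mp
      (Int.natCast_dvd.mpr (Nat.dvd_of_mem_primeFactors hp))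
    rw [(Nat.prime_dvd_prime_iff_eq (Nat.prime_of_mem_primeFactors hp)
      (FA.CubicFieldsBound.prime_of_mem_withSix hS hq)).mp (Int.natCast_dvd_natCast.mp hpq)]
    exact hq
  let z : ι → 𝓞 K := fun i => ⟨φ i, res_integral (hφ i)⟩
  obtain ⟨hfin, hcard⟩ := card_classes_le_two T z
    (fun i => evenOutside_resolvent (φ := z i) (D i) (h4 i) (hk i) hK (hφ i) (hd i) hT) (by
      rintro i j ⟨a, b, ha, hb, hab⟩
      refine hne i j ?_
      have ha' : (a : K) ≠ 0 := RingOfIntegers.coe_ne_zero_iff.mpr ha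
      have e : (z i : K) * (a : K) ^ 2 = (z j : K) * (b : K) ^ 2 := by
        exact_mod_cast congrArg (fun r : 𝓞 K => (r : K)) hab
      exact descent_class_iso (D j) (D i) (h4 j) (h4 i) ((D j).noRatRoot (hk j))
        ((D i).noRatRoot (hk i)) hK (hφ j) (hφ i) (w := (b : K) / a) (by
          rw [div_pow, mul_div_assoc', eq_div_iff (pow_ne_zero 2 ha')]
          exact e))
  refine ⟨hfin, hcard.trans ?_⟩
  have hr : Units.rank K + 1 ≤ 3 := by
    have h1 := InfinitePlace.card_add_two_mul_card_eq_rank K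
    have h2 := InfinitePlace.card_eq_nrRealPlaces_add_nrComplexPlaces (K := K)
    rw [Units.rank]
    omega
  calc 2 ^ T.card * Nat.card {c : ClassGroup (𝓞 K) // c ^ 2 = 1} * 2 ^ (Units.rank K + 1)
      ≤ 2 ^ (2 ^ 3 * (S.card + 2)) * Nat.card {c : ClassGroup (𝓞 K) // c ^ 2 = 1} * 2 ^ 3 :=
        Nat.mul_le_mul (Nat.mul_le_mul_right _ (Nat.pow_le_pow_right (by norm_num)
          (hTc.trans (Nat.mul_le_mul_left _ ((card_le_card hsub).trans (card_withSix_le S))))))
          (Nat.pow_le_pow_right (by norm_num) hr)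
    _ = _ := by rw [pow_mul]; norm_num; ring

/-- **The resolvent fields of a family.** -/
theorem exists_resolvent_family {S : Finset ℕ} (hS : ∀ p ∈ S, p.Prime) (ι : Type) (L : ι → Type)
    [∀ i, Field (L i)] [∀ i, NumberField (L i)] (h4 : ∀ i, finrank ℚ (L i) = 4)
    (hk : ∀ i, ∀ k : IntermediateField ℚ (L i), finrank ℚ k ≠ 2)
    (hd : ∀ i, ∀ p : ℕ, p.Prime → (p : ℤ) ∣ discr (L i) → p ∈ S)
    (hne : ∀ i j, Nonempty (L i ≃+* L j) → i = j) :
    ∃ (J : Type) (K : J → IntermediateField ℚ ℂ) (_ : ∀ j, NumberField (K j)),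
      (∀ j, finrank ℚ (K j) = 3) ∧ (∀ a b, Nonempty (K a ≃+* K b) → a = b) ∧
      (∀ j, ∀ p : ℕ, p.Prime → (p : ℤ) ∣ discr (K j) → p ∈ withSix S) ∧
      (∀ j, ∃ i, IsSquare (discr (K j) * discr (L i)) ∧
        ∀ p k : ℕ, p.Prime → 5 ≤ p → (p : ℤ) ^ k ∣ discr (K j) → (p : ℤ) ^ k ∣ discr (L i)) ∧
      ∀ (N : ℕ) (H : ℝ), 0 ≤ H → Finite J → Nat.card J ≤ N →
        (∀ j, (Nat.card {c : ClassGroup (𝓞 (K j)) // c ^ 2 = 1} : ℝ) ≤ H) →
        Finite ι ∧ (Nat.card ι : ℝ) ≤ 8 * 256 ^ (S.card + 2) * N * H := by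
  have hdat : ∀ i, ∃ (D : Depressed (L i)) (K : IntermediateField ℚ ℂ) (_ : NumberField K),
      finrank ℚ K = 3 ∧ ∃ φ : K, D.IsRes φ := fun i => by
    obtain ⟨D, -, -, -⟩ := exists_local (h4 i) Nat.prime_five (by norm_num)
    obtain ⟨K, hnf, h3, hφ⟩ := exists_cubic_field D (h4 i) (D.noRatRoot (hk i))
    exact ⟨D, K, hnf, h3, hφ⟩
  choose D F hnf h3 φ hφ using hdat
  haveI : ∀ i, NumberField (F i) := hnf
  let s : Setoid ι := ⟨fun a b => Nonempty (F a ≃+* F b), ⟨fun a => ⟨RingEquiv.refl _⟩,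
    fun h => ⟨h.some.symm⟩, fun h h' => ⟨h.some.trans h'.some⟩⟩⟩
  refine ⟨Quotient s, fun j => F j.out, fun j => hnf _, fun j => h3 _, fun a b h => ?_, ?_, ?_, ?_⟩
  · rw [← a.out_eq, ← b.out_eq]
    exact Quotient.sound h
  · intro j p hp hpd
    by_cases h5 : 5 ≤ p
    · refine mem_union_left _ (hd j.out p hp ?_)
      have := (resolvent_discr (D j.out) (h4 _) ((D j.out).noRatRoot (hk _)) (hk _) (h3 _)
        (hφ j.out)).1 p 1 hp h5 (by simpa using hpd)
      simpa using this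
    · refine mem_union_right _ ?_
      have := hp.two_le
      interval_cases p <;> first | decide | (norm_num at hp)
  · exact fun j => ⟨j.out, (resolvent_discr (D j.out) (h4 _) ((D j.out).noRatRoot (hk _)) (hk _)
      (h3 _) (hφ j.out)).symm⟩
  · intro N H hH0 hJ hN hH
    have hfib : ∀ j : Quotient s, Finite {i // Quotient.mk s i = j} ∧
        Nat.card {i // Quotient.mk s i = j} ≤
          8 * 256 ^ (S.card + 2) * Nat.card {c : ClassGroup (𝓞 (F j.out)) // c ^ 2 = 1} := by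
      intro j
      refine fields_le_of_resolvent hS (F j.out) (h3 _)
        (fun i : {i // Quotient.mk s i = j} => L i.1) (fun i => h4 i.1) (fun i => hk i.1)
        (fun i => hd i.1) (fun i => D i.1) (fun i => ?_)
        (fun a b h => Subtype.ext (hne _ _ h))
      have he : Nonempty (F i.1 ≃+* F j.out) := Quotient.exact (i.2.trans j.out_eq.symm)
      exact ⟨he.some (φ i.1), (hφ i.1).map he.some.toRingHom⟩
    haveI : ∀ j : Quotient s, Finite {i // Quotient.mk s i = j} := fun j => (hfib j).1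
    haveI : Fintype (Quotient s) := Fintype.ofFinite _
    refine ⟨Finite.of_equiv _ (Equiv.sigmaFiberEquiv (Quotient.mk s)), ?_⟩
    rw [← Nat.card_congr (Equiv.sigmaFiberEquiv (Quotient.mk s)), Nat.card_sigma, Nat.cast_sum]
    refine (sum_le_card_nsmul (univ : Finset (Quotient s))
      (fun j => (Nat.card {i // Quotient.mk s i = j} : ℝ)) (8 * 256 ^ (S.card + 2) * H)
      fun j _ => ?_).trans ?_
    · refine (Nat.cast_le.mpr (hfib j).2).trans ?_
      push_cast
      exact mul_le_mul_of_nonneg_left (hH j) (by positivity)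
    · rw [card_univ, nsmul_eq_mul, ← Nat.card_eq_fintype_card, mul_right_comm _ (N : ℝ) H,
        mul_comm]
      exact mul_le_mul_of_nonneg_left (Nat.cast_le.mpr hN) (by positivity)

end FA.QuarticResolvent
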