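import Mathlib

/-!
# The algebra of the cubic resolvent of a depressed quartic

If `x₀, …, x₃` are the roots of `t⁴ + p t² + q t + r`, the squares `(x₀ + xⱼ)²` are the roots of
`z³ + 2 p z² + (p² - 4 r) z - q²`, which has the same discriminant; a polynomial change of the root
multiplies them by squares, and square roots of them with product `± q` give back a root.
-/

set_option autoImplicit false

noncomputable section

namespace FA.QuarticResolvent

/-- The discriminant of `z³ + a z² + b z + c`. -/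
def cubicDisc {R : Type*} [CommRing R] (a b c : R) : R :=
  a ^ 2 * b ^ 2 - 4 * b ^ 3 - 4 * a ^ 3 * c - 27 * c ^ 2 + 18 * a * b * c

/-- The resolvent of `t⁴ + p t² + q t + r` at `z`. -/
def resEval {R : Type*} [CommRing R] (p q r z : R) : R :=
  z ^ 3 + 2 * p * z ^ 2 + (p ^ 2 - 4 * r) * z - q ^ 2

variable {F : Type*} [Field F]

/-- Vieta from three roots. -/
theorem vieta3 {a b c z₁ z₂ z₃ : F} (h12 : z₁ ≠ z₂) (h13 : z₁ ≠ z₃) (h23 : z₂ ≠ z₃)
    (r1 : z₁ ^ 3 + a * z₁ ^ 2 + b * z₁ + c = 0) (r2 : z₂ ^ 3 + a * z₂ ^ 2 + b * z₂ + c = 0)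
    (r3 : z₃ ^ 3 + a * z₃ ^ 2 + b * z₃ + c = 0) :
    z₁ + z₂ + z₃ = -a ∧ z₁ * z₂ + z₁ * z₃ + z₂ * z₃ = b ∧ z₁ * z₂ * z₃ = -c := by
  have A : z₁ ^ 2 + z₁ * z₂ + z₂ ^ 2 + a * (z₁ + z₂) + b = 0 :=
    mul_left_cancel₀ (sub_ne_zero.mpr h12) (by linear_combination r1 - r2)
  have A' : z₁ ^ 2 + z₁ * z₃ + z₃ ^ 2 + a * (z₁ + z₃) + b = 0 :=
    mul_left_cancel₀ (sub_ne_zero.mpr h13) (by linear_combination r1 - r3)
  have B : z₁ + z₂ + z₃ + a = 0 :=
    mul_left_cancel₀ (sub_ne_zero.mpr h23) (by linear_combination A - A')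
  have hb : z₁ * z₂ + z₁ * z₃ + z₂ * z₃ = b := by linear_combination -A + (z₁ + z₂) * B
  exact ⟨by linear_combination B, hb, by linear_combination r1 - z₁ ^ 2 * B + z₁ * hb⟩

/-- The four roots of a depressed quartic. -/
structure QuadRoots (p q r : F) (x : Fin 4 → F) : Prop where
  inj : Function.Injective x
  root : ∀ i, x i ^ 4 + p * x i ^ 2 + q * x i + r = 0

namespace QuadRoots

variable {p q r : F} {x : Fin 4 → F}

theorem perm (h : QuadRoots p q r x) (π : Equiv.Perm (Fin 4)) : QuadRoots p q r (x ∘ π) :=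
  ⟨h.inj.comp π.injective, fun i => h.root _⟩

theorem sum_eq (h : QuadRoots p q r x) : x 0 + x 1 + x 2 + x 3 = 0 := by
  have A : ∀ i j, i ≠ j → x i ^ 3 + x i ^ 2 * x j + x i * x j ^ 2 + x j ^ 3 + p * (x i + x j) + q
      = 0 := fun i j hij => mul_left_cancel₀ (sub_ne_zero.mpr (h.inj.ne hij))
    (by linear_combination h.root i - h.root j)
  have B : ∀ i j k, i ≠ j → i ≠ k → j ≠ k →
      x i ^ 2 + x j ^ 2 + x k ^ 2 + x i * x j + x i * x k + x j * x k + p = 0 :=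
    fun i j k hij hik hjk => mul_left_cancel₀ (sub_ne_zero.mpr (h.inj.ne hjk))
      (by linear_combination A i j hij - A i k hik)
  exact mul_left_cancel₀ (sub_ne_zero.mpr (h.inj.ne (show (2 : Fin 4) ≠ 3 by decide)))
    (by linear_combination B 0 1 2 (by decide) (by decide) (by decide) -
          B 0 1 3 (by decide) (by decide) (by decide))

/-- The coefficients. -/
theorem coeff_eq (h : QuadRoots p q r x) :
    p = x 0 * x 1 + x 2 * x 3 + (x 0 + x 1) * (x 2 + x 3) ∧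
      q = -(x 0 * x 1 * (x 2 + x 3) + x 2 * x 3 * (x 0 + x 1)) ∧
      r = x 0 * x 1 * x 2 * x 3 := by
  have hs := h.sum_eq
  have A : ∀ i j, i ≠ j → x i ^ 3 + x i ^ 2 * x j + x i * x j ^ 2 + x j ^ 3 + p * (x i + x j) + q
      = 0 := fun i j hij => mul_left_cancel₀ (sub_ne_zero.mpr (h.inj.ne hij))
    (by linear_combination h.root i - h.root j)
  have B : x 0 ^ 2 + x 1 ^ 2 + x 2 ^ 2 + x 0 * x 1 + x 0 * x 2 + x 1 * x 2 + p = 0 :=
    mul_left_cancel₀ (sub_ne_zero.mpr (h.inj.ne (show (1 : Fin 4) ≠ 2 by decide)))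
      (by linear_combination A 0 1 (by decide) - A 0 2 (by decide))
  have e3 : x 3 = -(x 0 + x 1 + x 2) := by linear_combination hs
  have hp : p = -(x 0 ^ 2 + x 1 ^ 2 + x 2 ^ 2 + x 0 * x 1 + x 0 * x 2 + x 1 * x 2) := by
    linear_combination B
  have hq : q = -(x 0 ^ 3 + x 0 ^ 2 * x 1 + x 0 * x 1 ^ 2 + x 1 ^ 3) - p * (x 0 + x 1) := by
    linear_combination A 0 1 (by decide)
  have hr : r = -(x 0 ^ 4 + p * x 0 ^ 2 + q * x 0) := by linear_combination h.root 0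
  refine ⟨?_, ?_, ?_⟩
  · rw [hp, e3]; ring
  · rw [hq, hp, e3]; ring
  · rw [hr, hq, hp, e3]; ring

/-- The resolvent value at `j`. -/
def val (x : Fin 4 → F) (j : Fin 4) : F := (x 0 + x j) ^ 2

theorem resEval_eq (h : QuadRoots p q r x) (z : F) :
    resEval p q r z = (z - val x 1) * (z - val x 2) * (z - val x 3) := by
  obtain ⟨hp, hq, hr⟩ := h.coeff_eq
  have e3 : x 3 = -(x 0 + x 1 + x 2) := by linear_combination h.sum_eq
  rw [hp, hq, hr, resEval, val, val, val, e3]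
  ring

theorem resEval_val (h : QuadRoots p q r x) {j : Fin 4} (hj : j ≠ 0) :
    resEval p q r (val x j) = 0 := by
  rw [h.resEval_eq]
  fin_cases j <;> simp_all

/-- The differences of the resolvent values. -/
theorem prod_val (h : QuadRoots p q r x) :
    (val x 2 - val x 1) * (val x 3 - val x 1) * (val x 3 - val x 2) =
      -((x 1 - x 0) * (x 2 - x 0) * (x 3 - x 0) * (x 2 - x 1) * (x 3 - x 1) * (x 3 - x 2)) := by
  have e3 : x 3 = -(x 0 + x 1 + x 2) := by linear_combination h.sum_eq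
  simp only [val, e3]
  ring

/-- The two discriminants agree. -/
theorem cubicDisc_eq (h : QuadRoots p q r x) :
    cubicDisc (2 * p) (p ^ 2 - 4 * r) (-q ^ 2) =
      ((x 1 - x 0) * (x 2 - x 0) * (x 3 - x 0) * (x 2 - x 1) * (x 3 - x 1) * (x 3 - x 2)) ^ 2 := by
  have hp := h.resEval_eq 0
  have hq := h.resEval_eq 1
  have hr := h.resEval_eq (-1)
  obtain ⟨hp', hq', hr'⟩ := h.coeff_eq
  have e3 : x 3 = -(x 0 + x 1 + x 2) := by linear_combination h.sum_eq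
  have ha : 2 * p = -(val x 1 + val x 2 + val x 3) := by
    rw [hp', e3, val, val, val, e3]; ring
  have hb : p ^ 2 - 4 * r = val x 1 * val x 2 + val x 1 * val x 3 + val x 2 * val x 3 := by
    rw [hp', hr', e3, val, val, val, e3]; ring
  have hc : -q ^ 2 = -(val x 1 * val x 2 * val x 3) := by
    rw [hq', e3, val, val, val, e3]; ring
  have key : cubicDisc (2 * p) (p ^ 2 - 4 * r) (-q ^ 2) =
      ((val x 2 - val x 1) * (val x 3 - val x 1) * (val x 3 - val x 2)) ^ 2 := by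
    rw [ha, hb, hc, cubicDisc]; ring
  rw [key, h.prod_val, neg_sq]

theorem val_ne [CharZero F] (h : QuadRoots p q r x) :
    val x 1 ≠ val x 2 ∧ val x 1 ≠ val x 3 ∧ val x 2 ≠ val x 3 := by
  have hne :
      (x 1 - x 0) * (x 2 - x 0) * (x 3 - x 0) * (x 2 - x 1) * (x 3 - x 1) * (x 3 - x 2) ≠ 0 :=
    by
      simp only [mul_ne_zero_iff, sub_ne_zero, h.inj.ne_iff]
      decide
  have h' := h.prod_val ▸ neg_ne_zero.mpr hne
  simp only [mul_ne_zero_iff, sub_ne_zero] at h'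
  exact ⟨h'.1.1.symm, h'.1.2.symm, h'.2.symm⟩

/-- The roots paired with the first. -/
theorem exists_perm {j : Fin 4} (hj : j ≠ 0) :
    ∃ π : Equiv.Perm (Fin 4), val x j = ((x ∘ π) 0 + (x ∘ π) 1) ^ 2 :=
  ⟨Equiv.swap 1 j, by
    rw [val, Function.comp_apply, Function.comp_apply, Equiv.swap_apply_left,
      Equiv.swap_apply_of_ne_of_ne (by decide) hj.symm]⟩

/-- **A polynomial change of the root**: the sum of the first two becomes a multiple of the old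
one by a rational function of its square. -/
theorem transfer [CharZero F] (h : QuadRoots p q r x) {a b c d z : F}
    (hz : z = (x 0 + x 1) ^ 2) (hz0 : z ≠ 0) (htr : 4 * a - 2 * c * p - 3 * d * q = 0) :
    ((a + b * x 0 + c * x 0 ^ 2 + d * x 0 ^ 3) + (a + b * x 1 + c * x 1 ^ 2 + d * x 1 ^ 3)) ^ 2 =
      z * (b - c * q / z - d * (z + 3 * p) / 2) ^ 2 := by
  obtain ⟨hp, hq, hr⟩ := h.coeff_eq
  set s := x 0 + x 1
  have e3 : x 2 + x 3 = -s := by simp only [s]; linear_combination h.sum_eq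
  have hs : s ≠ 0 := fun e => hz0 (by rw [hz, e, zero_pow two_ne_zero])
  have hq' : q = s * (x 0 * x 1) - s * (x 2 * x 3) := by rw [hq, e3]; ring
  have hp' : p = x 0 * x 1 + x 2 * x 3 - s ^ 2 := by rw [hp, e3]; ring
  have ha : a = (2 * c * p + 3 * d * q) / 4 := by linear_combination htr / 4
  have hsum : (a + b * x 0 + c * x 0 ^ 2 + d * x 0 ^ 3) +
      (a + b * x 1 + c * x 1 ^ 2 + d * x 1 ^ 3) =
      s * (b - c * q / z - d * (z + 3 * p) / 2) := by
    rw [ha, hz, hq', hp']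
    field_simp
    simp only [s]
    ring
  rw [hsum, hz, mul_pow]

/-- The power sums of the `x₀ + xⱼ`. -/
theorem power_sums (h : QuadRoots p q r x) :
    (x 0 + x 1) + (x 0 + x 2) + (x 0 + x 3) = 2 * x 0 ∧
    (x 0 + x 1) ^ 3 + (x 0 + x 2) ^ 3 + (x 0 + x 3) ^ 3 =
      -4 * x 0 ^ 3 - 6 * p * x 0 - 3 * q ∧
    (x 0 + x 1) ^ 5 + (x 0 + x 2) ^ 5 + (x 0 + x 3) ^ 5 =
      32 * x 0 ^ 5 - 40 * x 0 ^ 3 * (2 * x 0 ^ 2 + p) - 20 * x 0 ^ 2 * q +
        10 * x 0 * (2 * x 0 ^ 2 + p) ^ 2 + 5 * q * (2 * x 0 ^ 2 + p) := by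
  obtain ⟨hp, hq, hr⟩ := h.coeff_eq
  have e3 : x 3 = -(x 0 + x 1 + x 2) := by linear_combination h.sum_eq
  refine ⟨?_, ?_, ?_⟩
  · rw [e3]; ring
  · rw [hq, hp, e3]; ring
  · rw [hq, hp, e3]; ring

end QuadRoots

/-- **Square roots of the resolvent give back a root.** -/
theorem root_of_square_roots [CharZero F] {p q r s₁ s₂ s₃ : F} (h12 : s₁ ^ 2 ≠ s₂ ^ 2)
    (h13 : s₁ ^ 2 ≠ s₃ ^ 2) (h23 : s₂ ^ 2 ≠ s₃ ^ 2) (r1 : resEval p q r (s₁ ^ 2) = 0)
    (r2 : resEval p q r (s₂ ^ 2) = 0) (r3 : resEval p q r (s₃ ^ 2) = 0) :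
    ∃ ε : ℤ, (ε = 1 ∨ ε = -1) ∧
      ((ε : F) * (s₁ + s₂ + s₃) / 2) ^ 4 + p * ((ε : F) * (s₁ + s₂ + s₃) / 2) ^ 2 +
        q * ((ε : F) * (s₁ + s₂ + s₃) / 2) + r = 0 := by
  unfold resEval at r1 r2 r3
  obtain ⟨e1, e2, e3⟩ := vieta3 (a := 2 * p) (b := p ^ 2 - 4 * r) (c := -q ^ 2) h12 h13 h23
    (by linear_combination r1) (by linear_combination r2) (by linear_combination r3)
  have hsq : (s₁ * s₂ * s₃) ^ 2 = q ^ 2 := by linear_combination e3
  rcases sq_eq_sq_iff_eq_or_eq_neg.mp hsq with hP | hP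
  · refine ⟨-1, Or.inr rfl, ?_⟩
    push_cast
    linear_combination ((s₁ + s₂ + s₃) ^ 2 + 2 * (s₁ * s₂ + s₁ * s₃ + s₂ * s₃) + 2 * p) / 16 * e1
      + (1 / 4) * e2 + ((s₁ + s₂ + s₃) / 2) * hP
  · refine ⟨1, Or.inl rfl, ?_⟩
    push_cast
    linear_combination ((s₁ + s₂ + s₃) ^ 2 + 2 * (s₁ * s₂ + s₁ * s₃ + s₂ * s₃) + 2 * p) / 16 * e1
      + (1 / 4) * e2 + ((s₁ + s₂ + s₃) / 2) * hP

end FA.QuarticResolvent
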