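import Fermat.Agent.CubicFields.Fields

/-!
# The exponents in the discriminant of a cubic field

A form maximal at `p` has, after moving a repeated root to infinity, `p ∥ a` and `p ∣ b`; so no
sixth power of a prime divides the discriminant of a cubic field, and no third power of a prime
`p ≥ 5`.
-/

set_option autoImplicit false

noncomputable section

open NumberField Module
open FA.Thue FA.DeloneFaddeev FA.CubicFields

namespace FA.QuarticResolvent

theorem repeated_root_two : ∀ a b c d : ZMod 2,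
    b ^ 2 * c ^ 2 - 4 * a * c ^ 3 - 4 * b ^ 3 * d - 27 * a ^ 2 * d ^ 2 + 18 * a * b * c * d = 0 →
      (a = 0 ∧ b = 0) ∨ ∃ t, a * t ^ 3 + b * t ^ 2 + c * t + d = 0 ∧
        3 * a * t ^ 2 + 2 * b * t + c = 0 := by
  decide

theorem repeated_root_three : ∀ a b c d : ZMod 3,
    b ^ 2 * c ^ 2 - 4 * a * c ^ 3 - 4 * b ^ 3 * d - 27 * a ^ 2 * d ^ 2 + 18 * a * b * c * d = 0 →
      (a = 0 ∧ b = 0) ∨ ∃ t, a * t ^ 3 + b * t ^ 2 + c * t + d = 0 ∧
        3 * a * t ^ 2 + 2 * b * t + c = 0 := by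
  decide

/-- A vanishing discriminant gives a repeated root. -/
theorem exists_repeated_root {F : Type*} [Field F] (h2 : (2 : F) ≠ 0) (h3 : (3 : F) ≠ 0)
    (a b c d : F)
    (h : b ^ 2 * c ^ 2 - 4 * a * c ^ 3 - 4 * b ^ 3 * d - 27 * a ^ 2 * d ^ 2 + 18 * a * b * c * d
      = 0) :
    (a = 0 ∧ b = 0) ∨ ∃ t, a * t ^ 3 + b * t ^ 2 + c * t + d = 0 ∧
      3 * a * t ^ 2 + 2 * b * t + c = 0 := by
  by_cases ha : a = 0
  · by_cases hb : b = 0
    · exact Or.inl ⟨ha, hb⟩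
    · subst ha
      have hsq : c ^ 2 - 4 * b * d = 0 :=
        (mul_eq_zero.mp (show b ^ 2 * (c ^ 2 - 4 * b * d) = 0 by linear_combination h)).resolve_left
          (pow_ne_zero 2 hb)
      have hu : -c / (2 * b) * (2 * b) = -c := div_mul_cancel₀ _ (mul_ne_zero h2 hb)
      refine Or.inr ⟨-c / (2 * b), ?_, ?_⟩
      · refine mul_left_cancel₀ (pow_ne_zero 2 (mul_ne_zero h2 hb)) ?_
        linear_combination (b * (-c / (2 * b)) * (2 * b) + c * b) * hu - b * hsq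
      · linear_combination hu
  · refine Or.inr ?_
    obtain ⟨H, hH⟩ : ∃ H, H = b ^ 2 - 3 * a * c := ⟨_, rfl⟩
    by_cases hH0 : H = 0
    · have h27 : (27 : F) ≠ 0 := by
        rw [show (27 : F) = 3 * 3 * 3 by norm_num]
        exact mul_ne_zero (mul_ne_zero h3 h3) h3
      have hc : c = b ^ 2 / (3 * a) := by
        rw [eq_div_iff (mul_ne_zero h3 ha)]; linear_combination hH - hH0
      have hd : 27 * a ^ 2 * d - b ^ 3 = 0 := by
        refine (pow_eq_zero_iff two_ne_zero).mp ?_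
        rw [hc] at h
        field_simp at h
        refine mul_left_cancel₀ (pow_ne_zero 2 h3) ?_
        linear_combination -9 * h
      refine ⟨-b / (3 * a), ?_, ?_⟩
      · rw [hc]
        field_simp
        linear_combination hd
      · rw [hc]
        field_simp
        ring
    · refine ⟨(9 * a * d - b * c) / (2 * H), ?_, ?_⟩
      · field_simp
        subst hH
        linear_combination -(2 * b ^ 3 - 9 * a * b * c + 27 * a ^ 2 * d) * h
      · field_simp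
        subst hH
        linear_combination -9 * a * h

theorem two_case : ∀ A B c d : ZMod 4, 2 * A ≠ 0 → 2 * c ≠ 0 →
    B ^ 2 * c ^ 2 - 2 * A * c ^ 3 - 8 * B ^ 3 * d - 27 * A ^ 2 * d ^ 2 +
      18 * A * B * c * d ≠ 0 := by
  decide

theorem two_ne {x : ℤ} (h : ¬ (2 : ℤ) ∣ x) : 2 * (x : ZMod 4) ≠ 0 := by
  intro e
  have : ((2 * x : ℤ) : ZMod 4) = 0 := by push_cast; exact e
  rw [ZMod.intCast_zmod_eq_zero_iff_dvd] at this
  push_cast at this
  omega

/-- **The exponents of a maximal form.** -/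
theorem not_pow_dvd_disc {p : ℕ} (hp : p.Prime) {f : CubicForm} (hf : f ∉ badAt p) :
    ¬ (p : ℤ) ^ 6 ∣ f.disc ∧ (5 ≤ p → ¬ (p : ℤ) ^ 3 ∣ f.disc) := by
  have hP : Prime (p : ℤ) := Nat.prime_iff_prime_int.mp hp
  by_cases hdvd : (p : ℤ) ∣ f.disc
  swap
  · exact ⟨fun h => hdvd ((dvd_pow_self _ (by norm_num)).trans h),
      fun _ h => hdvd ((dvd_pow_self _ (by norm_num)).trans h)⟩
  haveI : Fact p.Prime := ⟨hp⟩
  have h0 : ((f.disc : ℤ) : ZMod p) = 0 := (ZMod.intCast_zmod_eq_zero_iff_dvd _ p).mpr hdvd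
  simp only [CubicForm.disc] at h0
  push_cast at h0
  have hroot : ((f.a : ZMod p) = 0 ∧ (f.b : ZMod p) = 0) ∨ ∃ t : ZMod p,
      (f.a : ZMod p) * t ^ 3 + f.b * t ^ 2 + f.c * t + f.d = 0 ∧
        3 * (f.a : ZMod p) * t ^ 2 + 2 * f.b * t + f.c = 0 := by
    by_cases h2 : p = 2
    · subst h2; exact repeated_root_two _ _ _ _ h0
    by_cases h3 : p = 3
    · subst h3; exact repeated_root_three _ _ _ _ h0
    refine exists_repeated_root (fun e => h2 ?_) (fun e => h3 ?_) _ _ _ _ h0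
    · exact ((Nat.prime_dvd_prime_iff_eq hp Nat.prime_two).mp
        ((ZMod.natCast_eq_zero_iff 2 p).mp (by exact_mod_cast e)))
    · exact ((Nat.prime_dvd_prime_iff_eq hp Nat.prime_three).mp
        ((ZMod.natCast_eq_zero_iff 3 p).mp (by exact_mod_cast e)))
  obtain ⟨M, hM, hga, hgb⟩ : ∃ M : Matrix (Fin 2) (Fin 2) ℤ, M.det = 1 ∧
      (p : ℤ) ∣ (actMat f M).a ∧ (p : ℤ) ∣ (actMat f M).b := by
    rcases hroot with ⟨ha, hb⟩ | ⟨t, ht, ht'⟩
    · refine ⟨1, Matrix.det_one, ?_, ?_⟩ <;> rw [actMat_one]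
      · exact (ZMod.intCast_zmod_eq_zero_iff_dvd _ p).mp ha
      · exact (ZMod.intCast_zmod_eq_zero_iff_dvd _ p).mp hb
    · obtain ⟨u, rfl⟩ := ZMod.intCast_surjective t
      refine ⟨!![u, -1; 1, 0], by simp [Matrix.det_fin_two], ?_, ?_⟩ <;>
        refine (ZMod.intCast_zmod_eq_zero_iff_dvd _ p).mp ?_
      · simp [actMat, CubicForm.act, CubicForm.eval]
        linear_combination ht
      · simp [actMat, CubicForm.act]
        linear_combination -ht'
  have htw : Twisted f (actMat f M) := ⟨M, by rw [hM]; exact isUnit_one, by rw [hM, scale_one]⟩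
  have hdisc : (actMat f M).disc = f.disc := by
    rw [actMat, CubicForm.disc_act, ← Matrix.det_fin_two, hM, one_pow, one_mul]
  rw [← hdisc]
  set g := actMat f M
  have hna : ¬ (p : ℤ) ^ 2 ∣ g.a := fun h => hf (Or.inr ⟨g, htw, h, hgb⟩)
  obtain ⟨A, hA⟩ := hga
  obtain ⟨B, hB⟩ := hgb
  have hA' : ¬ (p : ℤ) ∣ A := fun ⟨k, hk⟩ => hna ⟨k, by rw [hA, hk]; ring⟩
  have hp0 : (p : ℤ) ≠ 0 := hP.ne_zero
  by_cases hc : (p : ℤ) ∣ g.c
  · obtain ⟨C, hC⟩ := hc
    have hd : ¬ (p : ℤ) ∣ g.d := fun h => hf (Or.inl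
      ((htw.symm).dvd ⟨A, hA⟩ ⟨B, hB⟩ ⟨C, hC⟩ h))
    have e : g.disc = (p : ℤ) ^ 2 * (-27 * A ^ 2 * g.d ^ 2 +
        p * (p * B ^ 2 * C ^ 2 - 4 * p * A * C ^ 3 - 4 * B ^ 3 * g.d +
          18 * A * B * C * g.d)) := by
      simp only [CubicForm.disc, hA, hB, hC]; ring
    rw [e]
    by_cases h3 : p = 3
    · subst h3
      refine ⟨fun h => ?_, fun h5 => absurd h5 (by norm_num)⟩
      rw [show ((3 : ℕ) : ℤ) ^ 6 = ((3 : ℕ) : ℤ) ^ 2 * (27 * 3) by norm_num] at h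
      have h' := (mul_dvd_mul_iff_left (pow_ne_zero 2 hp0)).mp h
      push_cast at h' hd hA' hP
      have hBd : (3 : ℤ) ∣ B := by
        have h1 : (3 : ℤ) ^ 2 ∣ -27 * A ^ 2 * g.d ^ 2 + 3 * (3 * B ^ 2 * C ^ 2 - 4 * 3 * A * C ^ 3
            - 4 * B ^ 3 * g.d + 18 * A * B * C * g.d) := Dvd.dvd.trans ⟨9, by norm_num⟩ h'
        obtain ⟨k, hk⟩ := h1
        have h2 : (3 : ℤ) ∣ 4 * (B ^ 3 * g.d) :=
          ⟨-3 * A ^ 2 * g.d ^ 2 + B ^ 2 * C ^ 2 - 4 * A * C ^ 3 + 6 * A * B * C * g.d - k,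
            mul_left_cancel₀ (three_ne_zero (α := ℤ)) (by linear_combination -hk)⟩
        rcases hP.dvd_or_dvd h2 with h4 | h4
        · norm_num at h4
        · exact hP.dvd_of_dvd_pow ((hP.dvd_or_dvd h4).resolve_right hd)
      obtain ⟨B', rfl⟩ := hBd
      have hCd : (3 : ℤ) ∣ C := by
        obtain ⟨k, hk⟩ := h'
        have h2 : (3 : ℤ) ∣ 4 * (A * C ^ 3) :=
          ⟨-A ^ 2 * g.d ^ 2 + 3 * B' ^ 2 * C ^ 2 - 12 * B' ^ 3 * g.d + 6 * A * B' * C * g.d - 3 * k,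
            mul_left_cancel₀ (show (9 : ℤ) ≠ 0 by norm_num) (by linear_combination -hk)⟩
        rcases hP.dvd_or_dvd h2 with h4 | h4
        · norm_num at h4
        · exact hP.dvd_of_dvd_pow ((hP.dvd_or_dvd h4).resolve_left hA')
      obtain ⟨C', rfl⟩ := hCd
      obtain ⟨k, hk⟩ := h'
      have h2 : (3 : ℤ) ∣ A ^ 2 * g.d ^ 2 :=
        ⟨9 * B' ^ 2 * C' ^ 2 - 12 * A * C' ^ 3 - 4 * B' ^ 3 * g.d + 6 * A * B' * C' * g.d - k,
          mul_left_cancel₀ (show (27 : ℤ) ≠ 0 by norm_num) (by linear_combination -hk)⟩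
      rcases hP.dvd_or_dvd h2 with h4 | h4
      · exact hA' (hP.dvd_of_dvd_pow h4)
      · exact hd (hP.dvd_of_dvd_pow h4)
    · have key : ¬ (p : ℤ) ^ 3 ∣ (p : ℤ) ^ 2 * (-27 * A ^ 2 * g.d ^ 2 +
          p * (p * B ^ 2 * C ^ 2 - 4 * p * A * C ^ 3 - 4 * B ^ 3 * g.d +
            18 * A * B * C * g.d)) := by
        rw [pow_succ, mul_dvd_mul_iff_left (pow_ne_zero 2 hp0), dvd_add_left (dvd_mul_right _ _)]
        intro h
        rcases hP.dvd_or_dvd h with h | h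
        · rcases hP.dvd_or_dvd h with h | h
          · rw [Int.dvd_neg] at h
            exact h3 ((Nat.prime_dvd_prime_iff_eq hp Nat.prime_three).mp
              (Int.natCast_dvd_natCast.mp (hP.dvd_of_dvd_pow (n := 3) (by norm_num; exact h))))
          · exact hA' (hP.dvd_of_dvd_pow h)
        · exact hd (hP.dvd_of_dvd_pow h)
      exact ⟨fun h => key ((pow_dvd_pow _ (by norm_num)).trans h), fun _ => key⟩
  · by_cases h2 : p = 2
    · subst h2
      refine ⟨fun h => ?_, fun h5 => absurd h5 (by norm_num)⟩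
      have e : g.disc = 4 * (B ^ 2 * g.c ^ 2 - 2 * A * g.c ^ 3 - 8 * B ^ 3 * g.d -
          27 * A ^ 2 * g.d ^ 2 + 18 * A * B * g.c * g.d) := by
        simp only [CubicForm.disc, hA, hB]; push_cast; ring
      rw [e, show ((2 : ℕ) : ℤ) ^ 6 = 4 * (4 * 4) by norm_num] at h
      have h' := (dvd_mul_right (4 : ℤ) 4).trans
        ((mul_dvd_mul_iff_left (by norm_num : (4 : ℤ) ≠ 0)).mp h)
      push_cast at hc hA'
      have h4 := (ZMod.intCast_zmod_eq_zero_iff_dvd _ 4).mpr (by exact_mod_cast h')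
      push_cast at h4
      exact two_case A B g.c g.d (two_ne hA') (two_ne hc) h4
    · have key : ¬ (p : ℤ) ^ 2 ∣ g.disc := by
        have e : g.disc = (p : ℤ) * (-4 * A * g.c ^ 3 + p * (B ^ 2 * g.c ^ 2 -
            4 * p * B ^ 3 * g.d - 27 * A ^ 2 * g.d ^ 2 + 18 * A * B * g.c * g.d)) := by
          simp only [CubicForm.disc, hA, hB]; ring
        rw [e, sq, mul_dvd_mul_iff_left hp0, dvd_add_left (dvd_mul_right _ _)]
        intro h
        rcases hP.dvd_or_dvd h with h | h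
        · rcases hP.dvd_or_dvd h with h | h
          · rw [Int.dvd_neg] at h
            exact h2 ((Nat.prime_dvd_prime_iff_eq hp Nat.prime_two).mp
              (Int.natCast_dvd_natCast.mp (hP.dvd_of_dvd_pow (n := 2) (by norm_num; exact h))))
          · exact hA' h
        · exact hc (hP.dvd_of_dvd_pow h)
      exact ⟨fun h => key ((pow_dvd_pow _ (by norm_num)).trans h),
        fun _ h => key ((pow_dvd_pow _ (by norm_num)).trans h)⟩

/-- **The exponents of a cubic field.** -/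
theorem not_pow_dvd_discr (K : Type) [Field K] [NumberField K] (h3 : finrank ℚ K = 3) {p : ℕ}
    (hp : p.Prime) : ¬ (p : ℤ) ^ 6 ∣ discr K ∧ (5 ≤ p → ¬ (p : ℤ) ^ 3 ∣ discr K) := by
  obtain ⟨f, ⟨e⟩⟩ := exists_form_of_field K h3
  obtain ⟨hmax, -, hd⟩ := maxForms_of_ringOfIntegers e
  exact hd ▸ not_pow_dvd_disc hp (hmax p hp)

end FA.QuarticResolvent
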