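import Fermat.Agent.QuarticResolvent.Main

/-!
# A quartic field with square discriminant and without quadratic subfield

A root of a depressed quartic satisfying a quadratic over a field makes the square of the linear
coefficient a root of the resolvent; so `t⁴ + 8 t + 12` is irreducible and defines such a field.
-/

set_option autoImplicit false
set_option linter.style.haveILetI false

noncomputable section

open NumberField Module Polynomial
open scoped Classical IntermediateField

namespace FA.QuarticResolvent

/-- A quadratic relation gives a root of the resolvent. -/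
theorem resEval_of_quadratic {k M : Type*} [Field k] [Field M] [Algebra k M] {p q r a b : k}
    {θ : M} (hθ : θ ∉ Set.range (algebraMap k M))
    (h : θ ^ 4 + algebraMap k M p * θ ^ 2 + algebraMap k M q * θ + algebraMap k M r = 0)
    (h2 : θ ^ 2 + algebraMap k M a * θ + algebraMap k M b = 0) :
    resEval p q r (a ^ 2) = 0 := by
  set A : k := -a ^ 3 + 2 * a * b - p * a + q
  set B : k := b ^ 2 - a ^ 2 * b - p * b + r
  have e : algebraMap k M A * θ + algebraMap k M B = 0 := by
    simp only [A, B, map_add, map_sub, map_neg, map_mul, map_pow, map_ofNat]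
    linear_combination h - (θ ^ 2 - algebraMap k M a * θ + algebraMap k M a ^ 2 -
      algebraMap k M b + algebraMap k M p) * h2
  have hA : A = 0 := by
    by_contra hA
    refine hθ ⟨-B / A, ?_⟩
    rw [map_div₀, div_eq_iff ((_root_.map_ne_zero _).mpr hA), map_neg]
    linear_combination -e
  have hB : B = 0 := by
    rw [hA, map_zero, zero_mul, zero_add] at e
    exact (map_eq_zero _).mp e
  simp only [A] at hA
  simp only [B] at hB
  rw [resEval]
  linear_combination -(q + a ^ 3 - 2 * a * b + p * a) * hA - 4 * a ^ 2 * hB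

/-- A rational root of the resolvent of an integral quartic. -/
theorem exists_int_root {p q r : ℤ} {z : ℚ} (h : resEval (p : ℚ) q r z = 0) :
    ∃ n : ℤ, resEval p q r n = 0 := by
  have hint : IsIntegral ℤ z := by
    refine ⟨X ^ 3 + C (2 * p) * X ^ 2 + C (p ^ 2 - 4 * r) * X + C (-q ^ 2), by monicity!, ?_⟩
    rw [← aeval_def]
    unfold resEval at h
    simp [map_ofNat]
    linear_combination h
  obtain ⟨n, rfl⟩ := IsIntegrallyClosed.isIntegral_iff.mp hint
  refine ⟨n, ?_⟩
  rw [eq_intCast] at h
  unfold resEval at h ⊢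
  exact_mod_cast h

/-- **The example.** -/
theorem exists_square_example :
    ∃ (L : Type) (_ : Field L) (_ : NumberField L), finrank ℚ L = 4 ∧ IsSquare (discr L) ∧
      ∀ k : IntermediateField ℚ L, finrank ℚ k ≠ 2 := by
  have hres : ∀ z : ℚ, resEval ((0 : ℤ) : ℚ) ((8 : ℤ) : ℚ) ((12 : ℤ) : ℚ) z ≠ 0 := by
    intro z hz
    obtain ⟨n, hn⟩ := exists_int_root hz
    simp only [resEval] at hn
    have h1 : n ≤ 9 := by
      by_contra hc
      push Not at hc
      nlinarith [mul_le_mul hc.le hc.le (by norm_num : (0 : ℤ) ≤ 9) (by linarith)]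
    have h2 : -9 ≤ n := by
      by_contra hc
      push Not at hc
      have h3 : 0 < n ^ 2 - 48 := by nlinarith
      nlinarith [mul_neg_of_neg_of_pos (by linarith : n < 0) h3]
    interval_cases n <;> norm_num at hn
  obtain ⟨x, hx⟩ : ∃ x : ℂ, x ^ 4 + 8 * x + 12 = 0 := by
    obtain ⟨x, hx⟩ := IsAlgClosed.exists_root (X ^ 4 + C (8 : ℂ) * X + C 12) (by
      rw [degree_eq_natDegree (by
        intro h0
        have := congrArg (fun P => Polynomial.coeff P 4) h0
        simp [coeff_X, coeff_C] at this)]
      have hd : (X ^ 4 + C (8 : ℂ) * X + C 12).natDegree = 4 := by compute_degree!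
      rw [hd]
      norm_num)
    exact ⟨x, by simpa [IsRoot] using hx⟩
  set f : ℚ[X] := X ^ 4 + C 8 * X + C 12 with hfdef
  have hfm : f.Monic := by simp only [f]; monicity!
  have hfd : f.natDegree = 4 := by simp only [f]; compute_degree!
  have hfx : aeval x f = 0 := by simpa [f, map_ofNat] using hx
  have hint : IsIntegral ℚ x := ⟨f, hfm, by rw [← aeval_def]; exact hfx⟩
  have hreal : ∀ u : ℚ, u ^ 4 + 8 * u + 12 ≠ 0 := fun u h => by
    nlinarith [sq_nonneg (u ^ 2 - 2), sq_nonneg (u + 1)]
  have hdeg : (minpoly ℚ x).natDegree = 4 := by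
    have hdvd := minpoly.dvd ℚ x hfx
    have hle : (minpoly ℚ x).natDegree ≤ 4 := hfd ▸ natDegree_le_of_dvd hdvd hfm.ne_zero
    have h1 : (minpoly ℚ x).natDegree ≠ 1 := fun h => by
      obtain ⟨u, hu⟩ := minpoly.natDegree_eq_one_iff.mp h
      refine hreal u ((algebraMap ℚ ℂ).injective ?_)
      rw [← hu] at hx
      simpa [map_ofNat] using hx
    have h0 := minpoly.natDegree_pos hint
    have hm := minpoly.monic hint
    have h2 : (minpoly ℚ x).natDegree ≠ 2 := fun h => by
      have hrel := minpoly.aeval ℚ x
      rw [aeval_eq_sum_range, h, Finset.sum_range_succ, Finset.sum_range_succ,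
        Finset.sum_range_succ, Finset.sum_range_zero,
        show (minpoly ℚ x).coeff 2 = 1 from h ▸ hm] at hrel
      refine hres _ (resEval_of_quadratic (θ := x) (a := (minpoly ℚ x).coeff 1)
        (b := (minpoly ℚ x).coeff 0) (fun hr => h1 (minpoly.natDegree_eq_one_iff.mpr hr)) ?_ ?_)
      · simpa [map_ofNat] using hx
      · simp only [Algebra.smul_def, map_one, pow_zero, pow_one] at hrel
        linear_combination hrel
    have h3 : (minpoly ℚ x).natDegree ≠ 3 := fun h => by
      obtain ⟨g, hg⟩ := hdvd
      have hg0 : g ≠ 0 := fun e => hfm.ne_zero (by rw [hg, e, mul_zero])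
      have hgd : g.natDegree = 1 := by
        have := congrArg natDegree hg
        rw [natDegree_mul hm.ne_zero hg0, hfd, h] at this
        omega
      obtain ⟨u, hu⟩ := exists_root_of_degree_eq_one
        (show g.degree = 1 by rw [degree_eq_natDegree hg0, hgd]; rfl)
      have hu' : f.IsRoot u := by
        rw [hg]
        exact root_mul_left_of_isRoot _ hu
      exact hreal u (by simpa [f, IsRoot] using hu')
    omega
  haveI hfdL : FiniteDimensional ℚ ℚ⟮x⟯ := IntermediateField.adjoin.finiteDimensional hint
  haveI hnf : NumberField ℚ⟮x⟯ := @NumberField.mk _ _ inferInstance hfdL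
  have hn : finrank ℚ ℚ⟮x⟯ = 4 := by rw [IntermediateField.adjoin.finrank hint, hdeg]
  set y : ℚ⟮x⟯ := IntermediateField.AdjoinSimple.gen ℚ x
  have hy : y ^ 4 + ((0 : ℤ) : ℚ⟮x⟯) * y ^ 2 + ((8 : ℤ) : ℚ⟮x⟯) * y + ((12 : ℤ) : ℚ⟮x⟯) = 0 := by
    refine (ℚ⟮x⟯.val).toRingHom.injective ?_
    rw [map_zero]
    simp only [map_add, map_mul, map_pow, map_intCast,
      show (ℚ⟮x⟯.val).toRingHom y = x from rfl]
    push_cast
    linear_combination hx
  have hdy : (minpoly ℚ y).natDegree = 4 := by
    have e : minpoly ℚ y = minpoly ℚ x := by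
      convert (minpoly.algHom_eq ℚ⟮x⟯.val (ℚ⟮x⟯.val).toRingHom.injective y).symm using 2 <;>
        first | rfl | exact (IntermediateField.AdjoinSimple.coe_gen ℚ x).symm
    rw [e]
    exact hdeg
  let D : Depressed ℚ⟮x⟯ := ⟨y, 0, 8, 12, hy, hdy⟩
  refine ⟨ℚ⟮x⟯, inferInstance, inferInstance, hn, ?_, fun k hk => ?_⟩
  · have hθ : IsIntegral ℤ y := by
      refine ⟨X ^ 4 + C 8 * X + C 12, by monicity!, ?_⟩
      rw [← aeval_def]
      simpa [map_ofNat] using hy
    obtain ⟨m, hm0, hm, -⟩ := D.disc_eq hn ⟨y, hθ⟩ rfl
    refine isSquare_of_mul (pow_ne_zero 2 hm0) (IsSquare.sq m) ⟨576, ?_⟩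
    rw [mul_comm, ← hm]
    simp [D, Depressed.disc, cubicDisc]
  · haveI : Module.Finite k ℚ⟮x⟯ := inferInstance
    have h2 : finrank k ℚ⟮x⟯ = 2 := by
      have := Module.finrank_mul_finrank ℚ k ℚ⟮x⟯
      rw [hk, hn] at this
      omega
    have hyk : y ∉ Set.range (algebraMap k ℚ⟮x⟯) := by
      rintro ⟨w, hw⟩
      have h4 : (minpoly ℚ y).natDegree ≤ 2 := by
        have e : minpoly ℚ y = minpoly ℚ w := by
          rw [← hw, minpoly.algebraMap_eq (algebraMap k ℚ⟮x⟯).injective]
        rw [e, ← hk]
        exact minpoly.natDegree_le w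
      omega
    have hint' : IsIntegral k y := IsIntegral.of_finite k y
    have hd2 : (minpoly k y).natDegree = 2 :=
      le_antisymm (h2 ▸ minpoly.natDegree_le y) ((minpoly.two_le_natDegree_iff hint').mpr hyk)
    have hrel := minpoly.aeval k y
    rw [aeval_eq_sum_range, hd2, Finset.sum_range_succ, Finset.sum_range_succ,
      Finset.sum_range_succ, Finset.sum_range_zero,
      show (minpoly k y).coeff 2 = 1 from hd2 ▸ minpoly.monic hint'] at hrel
    have hroot := resEval_of_quadratic (θ := y) (p := ((0 : ℤ) : k)) (q := ((8 : ℤ) : k))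
      (r := ((12 : ℤ) : k)) (a := (minpoly k y).coeff 1) (b := (minpoly k y).coeff 0) hyk
      (by simpa [map_intCast, map_ofNat] using hy) (by
        simp only [Algebra.smul_def, map_one, pow_zero, pow_one] at hrel
        linear_combination hrel)
    set w : k := (minpoly k y).coeff 1 ^ 2
    set R : ℚ[X] := X ^ 3 - C 48 * X - C 64
    have hRw : aeval w R = 0 := by
      unfold resEval at hroot
      simp [R, map_ofNat]
      push_cast at hroot
      linear_combination hroot
    have hirr : Irreducible R := by
      have hd : R.natDegree = 3 := by simp only [R]; compute_degree!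
      rw [irreducible_iff_roots_eq_zero_of_degree_le_three (by omega) (by omega)]
      refine Multiset.eq_zero_of_forall_notMem fun u hu => hres u ?_
      have h0 := (mem_roots (fun e => by simp [e] at hd)).mp hu
      simp [R, IsRoot] at h0
      rw [resEval]
      push_cast
      linear_combination h0
    have hRm : R.Monic := by simp only [R]; monicity!
    have hdvd : finrank ℚ ℚ⟮w⟯ ∣ finrank ℚ k := by
      rw [IntermediateField.adjoin.finrank (IsIntegral.of_finite ℚ w)]
      exact minpoly.degree_dvd (IsIntegral.of_finite ℚ w)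
    rw [IntermediateField.adjoin.finrank (IsIntegral.of_finite ℚ w),
      ← minpoly.eq_of_irreducible_of_monic hirr hRw hRm, hk,
      show R.natDegree = 3 by simp only [R]; compute_degree!] at hdvd
    norm_num at hdvd

end FA.QuarticResolvent
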