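import Fermat.Agent.QuarticResolvent.Count
import Fermat.Agent.Root.SummaryCubicFieldsBound
import Fermat.Agent.TwoTorsionBound.Main

/-!
# Quartic fields with given ramification or discriminant

The resolvent fields are cubic fields ramified only in `6` and `S`, few by Ellenberg and
Venkatesh, and of bounded square class when the quartic discriminant is a square; their two-torsion
is small by Bhargava, Shankar, Taniguchi, Thorne, Tsimerman and Zhao.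
-/

set_option autoImplicit false
set_option linter.style.haveILetI false

noncomputable section

open NumberField Module Finset
open FA.BrumerSilverman (withSix card_withSix_le exists_pow_card_le exists_field)
open scoped Classical

namespace FA.QuarticResolvent

theorem natAbs_discr_dvd (K : Type) [Field K] [NumberField K] (hK : finrank ℚ K = 3) {M : ℕ}
    (h : ∀ p k : ℕ, p.Prime → 5 ≤ p → k ≤ 2 → (p : ℤ) ^ k ∣ discr K → p ^ k ∣ M) :
    (discr K).natAbs ∣ 6 ^ 5 * M := by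
  refine (Nat.dvd_iff_prime_pow_dvd_dvd _ _).mpr fun p k hp hpk => ?_
  have hpk' : (p : ℤ) ^ k ∣ discr K := by exact_mod_cast Int.natCast_dvd.mpr hpk
  obtain ⟨h6, h3⟩ := not_pow_dvd_discr K hK hp
  by_cases h5 : 5 ≤ p
  · have hk : k ≤ 2 := by
      by_contra hk
      exact h3 h5 ((pow_dvd_pow (p : ℤ) (by omega : 3 ≤ k)).trans hpk')
    exact (h p k hp h5 hk hpk').mul_left _
  · have hk : k ≤ 5 := by
      by_contra hk
      exact h6 ((pow_dvd_pow (p : ℤ) (by omega : 6 ≤ k)).trans hpk')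
    have hp6 : p ∣ 6 := by
      have := hp.two_le
      interval_cases p <;> first | decide | (norm_num at hp)
    exact ((pow_dvd_pow p hk).trans (pow_dvd_pow_of_dvd hp6 5)).mul_right _

theorem prod_withSix_le {S : Finset ℕ} (hS : ∀ p ∈ S, p.Prime) :
    ∏ p ∈ withSix S, p ≤ 6 * ∏ p ∈ S, p := by
  have e : (∏ p ∈ withSix S, p) * ∏ p ∈ S ∩ {2, 3}, p = (∏ p ∈ S, p) * 6 := by
    rw [withSix, prod_union_inter]
    simp
  rw [mul_comm, ← e]
  exact Nat.le_mul_of_pos_right _ (prod_pos fun p hp => (hS p (mem_inter.mp hp).1).pos)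

theorem isSquare_of_mul {a b : ℤ} (hb0 : b ≠ 0) (hb : IsSquare b) (h : IsSquare (a * b)) :
    IsSquare a := by
  obtain ⟨u, rfl⟩ := hb
  obtain ⟨w, hw⟩ := h
  have hu : u ≠ 0 := left_ne_zero_of_mul hb0
  obtain ⟨c, rfl⟩ : u ∣ w := (Int.pow_dvd_pow_iff two_ne_zero).mp ⟨a, by linear_combination -hw⟩
  exact ⟨c, mul_left_cancel₀ (mul_ne_zero hu hu) (by linear_combination hw)⟩

/-- The fields without a quadratic subfield. -/
theorem exists_noQuad_bound {ε : ℝ} (hε : 0 < ε) : ∃ A : ℝ, 0 ≤ A ∧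
    ∀ S : Finset ℕ, (∀ p ∈ S, p.Prime) →
    ∀ (ι : Type) (L : ι → Type) [∀ i, Field (L i)] [∀ i, NumberField (L i)],
      (∀ i, finrank ℚ (L i) = 4) →
      (∀ i, ∀ k : IntermediateField ℚ (L i), finrank ℚ k ≠ 2) →
      (∀ i, ∀ p : ℕ, p.Prime → (p : ℤ) ∣ discr (L i) → p ∈ S) →
      (∀ i j, Nonempty (L i ≃+* L j) → i = j) →
      ∀ M : ℕ, M ≠ 0 →
        (∀ i, ∀ p k : ℕ, p.Prime → 5 ≤ p → k ≤ 2 → (p : ℤ) ^ k ∣ discr (L i) → p ^ k ∣ M) →
        Finite ι ∧ (Nat.card ι : ℝ) ≤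
          A * 256 ^ S.card * ((∏ p ∈ S, p : ℕ) : ℝ) ^ (1 / 3 + ε) * (M : ℝ) ^ (1 / 3 + ε) ∧
          ((∀ i, IsSquare (discr (L i))) →
            (Nat.card ι : ℝ) ≤ A * (256 * 81) ^ S.card * (M : ℝ) ^ (1 / 3 + ε)) := by
  obtain ⟨T₀, htwo⟩ := FA.TwoTorsionBound.exists_two_torsion_bound 3 (by norm_num) hε
  obtain ⟨C, hC, hcubic⟩ := FA.CubicFieldsBound.Summary.cubic_fields_ramified_in hε
  obtain ⟨K₃, _, s, hK₃, hs⟩ := exists_field (k := -3) (fun ⟨c, hc⟩ => by nlinarith)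
  set h₃ : ℕ := Nat.card {c : ClassGroup (𝓞 K₃) // c ^ 3 = 1}
  set T := max T₀ 0
  have hT : 0 ≤ T := le_max_right _ _
  refine ⟨8 * 256 ^ 2 * (T * (6 ^ 5 : ℝ) ^ (1 / 3 + ε)) *
    (C * (6 : ℝ) ^ (1 / 3 + ε) + 9 * 81 ^ 4 * h₃), by positivity,
    fun S hS ι L _ _ h4 hk hd hne M hM hMd => ?_⟩
  obtain ⟨J, K, _, h3, hJne, hJd, hJL, hmain⟩ := exists_resolvent_family hS ι L h4 hk hd hne
  set H : ℝ := T * (6 ^ 5 : ℝ) ^ (1 / 3 + ε) * (M : ℝ) ^ (1 / 3 + ε)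
  have hH0 : 0 ≤ H := by positivity
  have hH : ∀ j, (Nat.card {c : ClassGroup (𝓞 (K j)) // c ^ 2 = 1} : ℝ) ≤ H := by
    intro j
    obtain ⟨i, -, hpk⟩ := hJL j
    have hle : (discr (K j)).natAbs ≤ 6 ^ 5 * M :=
      Nat.le_of_dvd (Nat.pos_of_ne_zero (mul_ne_zero (by norm_num) hM))
        (natAbs_discr_dvd (K j) (h3 j) fun p k hp h5 hk' h => hMd i p k hp h5 hk' (hpk p k hp h5 h))
    have h := htwo (K j) (h3 j)
    rw [show (1 : ℝ) / 2 - 1 / (2 * ((3 : ℕ) : ℝ)) + ε = 1 / 3 + ε by norm_num] at h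
    refine (h.trans (mul_le_mul_of_nonneg_right (le_max_left T₀ 0)
      (Real.rpow_nonneg (abs_nonneg _) _))).trans ?_
    simp only [H]
    rw [mul_assoc T, ← Real.mul_rpow (by norm_num) (Nat.cast_nonneg _)]
    refine mul_le_mul_of_nonneg_left (Real.rpow_le_rpow (abs_nonneg _) ?_ (by positivity)) hT
    rw [show |(discr (K j) : ℝ)| = ((discr (K j)).natAbs : ℝ) by rw [Nat.cast_natAbs, Int.cast_abs]]
    exact_mod_cast hle
  obtain ⟨hJfin, hJc⟩ := hcubic (withSix S)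
    (fun p hp => FA.CubicFieldsBound.prime_of_mem_withSix hS hp) J (fun j => K j) h3 hJd hJne
  haveI := hJfin
  obtain ⟨hfin, hcard⟩ := hmain (Nat.card J) H hH0 hJfin le_rfl hH
  refine ⟨hfin, ?_, fun hsq => ?_⟩
  · have hJ' : (Nat.card J : ℝ) ≤
        C * (6 : ℝ) ^ (1 / 3 + ε) * ((∏ p ∈ S, p : ℕ) : ℝ) ^ (1 / 3 + ε) := by
      refine hJc.trans ?_
      rw [mul_assoc C, ← Real.mul_rpow (by norm_num) (Nat.cast_nonneg _)]
      refine mul_le_mul_of_nonneg_left (Real.rpow_le_rpow (Nat.cast_nonneg _) ?_ (by positivity)) hC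
      exact_mod_cast prod_withSix_le hS
    refine hcard.trans ?_
    calc 8 * (256 : ℝ) ^ (S.card + 2) * Nat.card J * H
        ≤ 8 * (256 : ℝ) ^ (S.card + 2) *
            (C * (6 : ℝ) ^ (1 / 3 + ε) * ((∏ p ∈ S, p : ℕ) : ℝ) ^ (1 / 3 + ε)) * H := by
          gcongr
      _ = 8 * 256 ^ 2 * (T * (6 ^ 5 : ℝ) ^ (1 / 3 + ε)) * (C * (6 : ℝ) ^ (1 / 3 + ε)) *
            256 ^ S.card * ((∏ p ∈ S, p : ℕ) : ℝ) ^ (1 / 3 + ε) * (M : ℝ) ^ (1 / 3 + ε) := by
          simp only [H]; rw [pow_add]; ring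
      _ ≤ _ := by
          gcongr
          exact le_add_of_nonneg_right (by positivity)
  · obtain ⟨-, hJs⟩ := FA.CubicFieldsBound.Summary.cubic_fields_by_resolvent (withSix S)
      (fun p hp => FA.CubicFieldsBound.prime_of_mem_withSix hS hp) (-3) K₃ hK₃
      (fun ⟨c, hc⟩ => by nlinarith) s hs J (fun j => K j) h3 hJd (fun j => by
        obtain ⟨i, hi, -⟩ := hJL j
        obtain ⟨c, hc⟩ := isSquare_of_mul (discr_ne_zero _) (hsq i) hi
        exact ⟨c, by rw [hc]; ring⟩) hJne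
    have hJ' : (Nat.card J : ℝ) ≤ 9 * 81 ^ 4 * h₃ * 81 ^ S.card := by
      refine (Nat.cast_le.mpr hJs).trans ?_
      push_cast
      have : (81 : ℝ) ^ ((withSix S).card + 2) ≤ 81 ^ (S.card + 4) :=
        pow_le_pow_right₀ (by norm_num) (by have := card_withSix_le S; omega)
      calc (9 : ℝ) * 81 ^ ((withSix S).card + 2) * h₃ ≤ 9 * 81 ^ (S.card + 4) * h₃ := by gcongr
        _ = _ := by rw [pow_add]; ring
    refine hcard.trans ?_
    calc 8 * (256 : ℝ) ^ (S.card + 2) * Nat.card J * H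
        ≤ 8 * (256 : ℝ) ^ (S.card + 2) * (9 * 81 ^ 4 * h₃ * 81 ^ S.card) * H := by gcongr
      _ = 8 * 256 ^ 2 * (T * (6 ^ 5 : ℝ) ^ (1 / 3 + ε)) * (9 * 81 ^ 4 * h₃) *
            (256 * 81) ^ S.card * (M : ℝ) ^ (1 / 3 + ε) := by
          simp only [H]; rw [pow_add, mul_pow]; ring
      _ ≤ _ := by
          gcongr
          exact le_add_of_nonneg_left (by positivity)

/-- The fields with a quadratic subfield. -/
theorem exists_quad_bound {ε : ℝ} (hε : 0 < ε) : ∃ C : ℝ, 0 ≤ C ∧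
    ∀ S : Finset ℕ, (∀ p ∈ S, p.Prime) →
    ∀ (ι : Type) (L : ι → Type) [∀ i, Field (L i)] [∀ i, NumberField (L i)],
      (∀ i, finrank ℚ (L i) = 4) →
      (∀ i, ∃ k : IntermediateField ℚ (L i), finrank ℚ k = 2) →
      (∀ i, ∀ p : ℕ, p.Prime → (p : ℤ) ∣ discr (L i) → p ∈ S) →
      (∀ i j, Nonempty (L i ≃+* L j) → i = j) →
      Finite ι ∧ (Nat.card ι : ℝ) ≤ C * ((∏ p ∈ S, p : ℕ) : ℝ) ^ ε := by
  obtain ⟨B, hB, hpow⟩ := exists_pow_card_le 64 hε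
  refine ⟨32 * B, by linarith, fun S hS ι L _ _ h4 hk hd hne => ?_⟩
  obtain ⟨hfin, hle⟩ := quadratic_subfield_le hS ι L h4 hk hd hne
  refine ⟨hfin, (Nat.cast_le.mpr hle).trans ?_⟩
  push_cast
  rw [mul_assoc]
  have := hpow S hS
  push_cast at this
  linarith

theorem prime_pow_dvd_prod_sq {S : Finset ℕ} {d : ℤ}
    (hd : ∀ p : ℕ, p.Prime → (p : ℤ) ∣ d → p ∈ S) {p k : ℕ} (hp : p.Prime) (hk : k ≤ 2)
    (h : (p : ℤ) ^ k ∣ d) : p ^ k ∣ (∏ q ∈ S, q) ^ 2 := by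
  rcases Nat.eq_zero_or_pos k with rfl | hk0
  · simp
  exact (pow_dvd_pow p hk).trans (pow_dvd_pow_of_dvd
    (dvd_prod_of_mem _ (hd p hp ((dvd_pow_self _ hk0.ne').trans h))) 2)

/-- **All quartic fields ramified only in `S`, and those of square discriminant.** -/
theorem exists_ramified_bound {ε : ℝ} (hε : 0 < ε) : ∃ C : ℝ, 0 ≤ C ∧
    ∀ S : Finset ℕ, (∀ p ∈ S, p.Prime) →
    ∀ (ι : Type) (L : ι → Type) [∀ i, Field (L i)] [∀ i, NumberField (L i)],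
      (∀ i, finrank ℚ (L i) = 4) →
      (∀ i, ∀ p : ℕ, p.Prime → (p : ℤ) ∣ discr (L i) → p ∈ S) →
      (∀ i j, Nonempty (L i ≃+* L j) → i = j) →
      Finite ι ∧ (Nat.card ι : ℝ) ≤ C * ((∏ p ∈ S, p : ℕ) : ℝ) ^ (1 + ε) ∧
        ((∀ i, IsSquare (discr (L i))) →
          (Nat.card ι : ℝ) ≤ C * ((∏ p ∈ S, p : ℕ) : ℝ) ^ (2 / 3 + ε)) := by
  obtain ⟨A, hA, hno⟩ := exists_noQuad_bound (show 0 < ε / 4 by positivity)
  obtain ⟨Q, hQ, hquad⟩ := exists_quad_bound hε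
  obtain ⟨B, hB, hpow⟩ := exists_pow_card_le (256 * 81) (show 0 < ε / 4 by positivity)
  refine ⟨A * B + Q, by positivity, fun S hS ι L _ _ h4 hd hne => ?_⟩
  set P : ℕ := ∏ p ∈ S, p
  have hP : 1 ≤ P := prod_pos fun p hp => (hS p hp).pos
  have hPR : (1 : ℝ) ≤ P := Nat.one_le_cast.mpr hP
  let q : ι → Prop := fun i => ∃ k : IntermediateField ℚ (L i), finrank ℚ k = 2
  obtain ⟨hf1, hc1⟩ := hquad S hS {i // q i} (fun i => L i.1) (fun i => h4 i.1) (fun i => i.2)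
    (fun i => hd i.1) fun i j e => Subtype.ext (hne _ _ e)
  obtain ⟨hf2, hc2, hc2'⟩ := hno S hS {i // ¬ q i} (fun i => L i.1) (fun i => h4 i.1)
    (fun i k hk => i.2 ⟨k, hk⟩) (fun i => hd i.1) (fun i j e => Subtype.ext (hne _ _ e))
    (P ^ 2) (pow_ne_zero _ (by omega))
    (fun i p k hp _ hk h => prime_pow_dvd_prod_sq (hd i.1) hp hk h)
  refine ⟨Finite.of_equiv _ (Equiv.sumCompl q), ?_, fun hsq => ?_⟩ <;>
    rw [← Nat.card_congr (Equiv.sumCompl q), Nat.card_sum, Nat.cast_add, add_mul (A * B) Q,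
      add_comm (Nat.card {i // q i} : ℝ)]
  · refine add_le_add ?_ (hc1.trans (mul_le_mul_of_nonneg_left
      (Real.rpow_le_rpow_of_exponent_le hPR (by linarith)) hQ))
    refine hc2.trans ?_
    have hp := hpow S hS
    push_cast at hp
    have h256 : (256 : ℝ) ^ S.card ≤ B * (P : ℝ) ^ (ε / 4) :=
      le_trans (pow_le_pow_left₀ (b := 256 * 81) (by norm_num) (by norm_num) _)
        (by norm_num [P] at hp ⊢; exact hp)
    calc A * 256 ^ S.card * (P : ℝ) ^ (1 / 3 + ε / 4) * ((P ^ 2 : ℕ) : ℝ) ^ (1 / 3 + ε / 4)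
        ≤ A * (B * (P : ℝ) ^ (ε / 4)) * (P : ℝ) ^ (1 / 3 + ε / 4) *
            ((P ^ 2 : ℕ) : ℝ) ^ (1 / 3 + ε / 4) := by gcongr
      _ = A * B * (P : ℝ) ^ (1 + ε) := by
          have hpos : (0 : ℝ) < P := by linarith
          rw [Nat.cast_pow, sq, Real.mul_rpow hpos.le hpos.le,
            show A * (B * (P : ℝ) ^ (ε / 4)) * (P : ℝ) ^ (1 / 3 + ε / 4) *
              ((P : ℝ) ^ (1 / 3 + ε / 4) * (P : ℝ) ^ (1 / 3 + ε / 4)) = A * B *
              ((P : ℝ) ^ (ε / 4) * (P : ℝ) ^ (1 / 3 + ε / 4) * (P : ℝ) ^ (1 / 3 + ε / 4) *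
                (P : ℝ) ^ (1 / 3 + ε / 4)) by ring,
            ← Real.rpow_add hpos, ← Real.rpow_add hpos, ← Real.rpow_add hpos]
          ring_nf
  · refine add_le_add ?_ (hc1.trans (mul_le_mul_of_nonneg_left
      (Real.rpow_le_rpow_of_exponent_le hPR (by linarith)) hQ))
    refine (hc2' fun i => hsq i.1).trans ?_
    have hp := hpow S hS
    push_cast at hp
    calc A * (256 * 81) ^ S.card * ((P ^ 2 : ℕ) : ℝ) ^ (1 / 3 + ε / 4)
        ≤ A * (B * (P : ℝ) ^ (ε / 4)) * ((P ^ 2 : ℕ) : ℝ) ^ (1 / 3 + ε / 4) := by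
          gcongr
          norm_num [P] at hp ⊢
          exact hp
      _ = A * B * (P : ℝ) ^ (2 / 3 + 3 / 4 * ε) := by
          have hpos : (0 : ℝ) < P := by linarith
          rw [Nat.cast_pow, sq, Real.mul_rpow hpos.le hpos.le,
            show A * (B * (P : ℝ) ^ (ε / 4)) *
              ((P : ℝ) ^ (1 / 3 + ε / 4) * (P : ℝ) ^ (1 / 3 + ε / 4)) = A * B *
              ((P : ℝ) ^ (ε / 4) * (P : ℝ) ^ (1 / 3 + ε / 4) * (P : ℝ) ^ (1 / 3 + ε / 4)) by ring,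
            ← Real.rpow_add hpos, ← Real.rpow_add hpos]
          ring_nf
      _ ≤ _ := mul_le_mul_of_nonneg_left
          (Real.rpow_le_rpow_of_exponent_le hPR (by linarith)) (by positivity)

/-- **Quartic fields of given discriminant.** -/
theorem exists_discriminant_bound {ε : ℝ} (hε : 0 < ε) : ∃ C : ℝ, 0 ≤ C ∧
    ∀ d : ℤ, d ≠ 0 →
    ∀ (ι : Type) (L : ι → Type) [∀ i, Field (L i)] [∀ i, NumberField (L i)],
      (∀ i, finrank ℚ (L i) = 4) → (∀ i, discr (L i) = d) →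
      (∀ i j, Nonempty (L i ≃+* L j) → i = j) →
      Finite ι ∧ (Nat.card ι : ℝ) ≤ C * |(d : ℝ)| ^ (2 / 3 + ε) ∧
        (IsSquare d → (Nat.card ι : ℝ) ≤ C * |(d : ℝ)| ^ (1 / 3 + ε)) := by
  obtain ⟨A, hA, hno⟩ := exists_noQuad_bound (show 0 < ε / 3 by positivity)
  obtain ⟨Q, hQ, hquad⟩ := exists_quad_bound hε
  obtain ⟨B, hB, hpow⟩ := exists_pow_card_le (256 * 81) (show 0 < ε / 3 by positivity)
  refine ⟨A * B + Q, by positivity, fun d hd0 ι L _ _ h4 hdisc hne => ?_⟩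
  set S := d.natAbs.primeFactors
  have hS : ∀ p ∈ S, p.Prime := fun p hp => Nat.prime_of_mem_primeFactors hp
  set P : ℕ := ∏ p ∈ S, p
  have hP : 1 ≤ P := prod_pos fun p hp => (hS p hp).pos
  have hD : |(d : ℝ)| = ((d.natAbs : ℕ) : ℝ) := by rw [Nat.cast_natAbs, Int.cast_abs]
  rw [hD]
  set D : ℕ := d.natAbs
  have hD0 : D ≠ 0 := Int.natAbs_ne_zero.mpr hd0
  have hDR : (1 : ℝ) ≤ D := Nat.one_le_cast.mpr (Nat.pos_of_ne_zero hD0)
  have hPD : (P : ℝ) ≤ D := Nat.cast_le.mpr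
    (Nat.le_of_dvd (Nat.pos_of_ne_zero hD0) (Nat.prod_primeFactors_dvd _))
  have hd : ∀ i, ∀ p : ℕ, p.Prime → (p : ℤ) ∣ discr (L i) → p ∈ S := fun i p hp h =>
    Nat.mem_primeFactors.mpr ⟨hp, Int.natCast_dvd.mp (hdisc i ▸ h), hD0⟩
  let q : ι → Prop := fun i => ∃ k : IntermediateField ℚ (L i), finrank ℚ k = 2
  obtain ⟨hf1, hc1⟩ := hquad S hS {i // q i} (fun i => L i.1) (fun i => h4 i.1) (fun i => i.2)
    (fun i => hd i.1) fun i j e => Subtype.ext (hne _ _ e)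
  obtain ⟨hf2, hc2, hc2'⟩ := hno S hS {i // ¬ q i} (fun i => L i.1) (fun i => h4 i.1)
    (fun i k hk => i.2 ⟨k, hk⟩) (fun i => hd i.1) (fun i j e => Subtype.ext (hne _ _ e))
    D hD0 (fun i p k _ _ _ h => by
      rw [hdisc i.1] at h
      exact Int.natCast_dvd.mp (by exact_mod_cast h))
  have hc1' : (Nat.card {i // q i} : ℝ) ≤ Q * (D : ℝ) ^ ε :=
    hc1.trans (mul_le_mul_of_nonneg_left
      (Real.rpow_le_rpow (Nat.cast_nonneg _) hPD hε.le) hQ)
  have hp : (256 * 81 : ℝ) ^ S.card ≤ B * (D : ℝ) ^ (ε / 3) := by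
    have hp := hpow S hS
    push_cast at hp
    refine le_trans (b := B * (P : ℝ) ^ (ε / 3)) (by norm_num [P] at hp ⊢; exact hp) ?_
    exact mul_le_mul_of_nonneg_left (Real.rpow_le_rpow (Nat.cast_nonneg _) hPD (by positivity))
      (by linarith)
  refine ⟨Finite.of_equiv _ (Equiv.sumCompl q), ?_, fun hsq => ?_⟩ <;>
    rw [← Nat.card_congr (Equiv.sumCompl q), Nat.card_sum, Nat.cast_add, add_mul (A * B) Q,
      add_comm (Nat.card {i // q i} : ℝ)]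
  · refine add_le_add ?_ (hc1'.trans (mul_le_mul_of_nonneg_left
      (Real.rpow_le_rpow_of_exponent_le hDR (by linarith)) hQ))
    refine hc2.trans ?_
    have h256 : (256 : ℝ) ^ S.card ≤ B * (D : ℝ) ^ (ε / 3) :=
      le_trans (pow_le_pow_left₀ (by norm_num) (by norm_num) _) hp
    calc A * 256 ^ S.card * (P : ℝ) ^ (1 / 3 + ε / 3) * (D : ℝ) ^ (1 / 3 + ε / 3)
        ≤ A * (B * (D : ℝ) ^ (ε / 3)) * (D : ℝ) ^ (1 / 3 + ε / 3) *
            (D : ℝ) ^ (1 / 3 + ε / 3) := by gcongr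
      _ = A * B * (D : ℝ) ^ (2 / 3 + ε) := by
          have hpos : (0 : ℝ) < D := by linarith
          rw [show A * (B * (D : ℝ) ^ (ε / 3)) * (D : ℝ) ^ (1 / 3 + ε / 3) *
              (D : ℝ) ^ (1 / 3 + ε / 3) = A * B *
              ((D : ℝ) ^ (ε / 3) * (D : ℝ) ^ (1 / 3 + ε / 3) * (D : ℝ) ^ (1 / 3 + ε / 3)) by ring,
            ← Real.rpow_add hpos, ← Real.rpow_add hpos]
          ring_nf
  · refine add_le_add ?_ (hc1'.trans (mul_le_mul_of_nonneg_left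
      (Real.rpow_le_rpow_of_exponent_le hDR (by linarith)) hQ))
    refine (hc2' fun i => (hdisc i.1).symm ▸ hsq).trans ?_
    calc A * (256 * 81) ^ S.card * (D : ℝ) ^ (1 / 3 + ε / 3)
        ≤ A * (B * (D : ℝ) ^ (ε / 3)) * (D : ℝ) ^ (1 / 3 + ε / 3) := by gcongr
      _ = A * B * (D : ℝ) ^ (1 / 3 + 2 / 3 * ε) := by
          have hpos : (0 : ℝ) < D := by linarith
          rw [show A * (B * (D : ℝ) ^ (ε / 3)) * (D : ℝ) ^ (1 / 3 + ε / 3) = A * B *
              ((D : ℝ) ^ (ε / 3) * (D : ℝ) ^ (1 / 3 + ε / 3)) by ring, ← Real.rpow_add hpos]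
          ring_nf
      _ ≤ _ := mul_le_mul_of_nonneg_left
          (Real.rpow_le_rpow_of_exponent_le hDR (by linarith)) (by positivity)

/-- **Wong's bound.** -/
theorem exists_square_count {ε : ℝ} (hε : 0 < ε) : ∃ C : ℝ, 0 ≤ C ∧
    ∀ (X : ℝ), 0 ≤ X → ∀ (ι : Type) (L : ι → Type) [∀ i, Field (L i)] [∀ i, NumberField (L i)],
      (∀ i, finrank ℚ (L i) = 4) → (∀ i, IsSquare (discr (L i))) →
      (∀ i, |(discr (L i) : ℝ)| ≤ X) → (∀ i j, Nonempty (L i ≃+* L j) → i = j) →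
      Finite ι ∧ (Nat.card ι : ℝ) ≤ C * X ^ (5 / 6 + ε) := by
  obtain ⟨C, hC, hram⟩ := exists_ramified_bound (show 0 < 2 * ε by positivity)
  refine ⟨C, hC, fun X hX ι L _ _ h4 hsq hdisc hne => ?_⟩
  set M := ⌊Real.sqrt X⌋₊
  set n : ι → ℕ := fun i => ∏ p ∈ (discr (L i)).natAbs.primeFactors, p
  have hmem : ∀ i, n i ∈ Icc 1 M := by
    intro i
    refine mem_Icc.mpr ⟨prod_pos fun p hp => (Nat.prime_of_mem_primeFactors hp).pos,
      Nat.le_floor ?_⟩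
    refine Real.le_sqrt_of_sq_le (le_trans ?_ (hdisc i))
    rw [show |(discr (L i) : ℝ)| = ((discr (L i)).natAbs : ℝ) by
      rw [Nat.cast_natAbs, Int.cast_abs]]
    obtain ⟨u, hu⟩ := hsq i
    have hu0 : u.natAbs ≠ 0 := fun h => discr_ne_zero (L i) (by
      rw [hu, Int.natAbs_eq_zero.mp h, mul_zero])
    have e : (discr (L i)).natAbs = u.natAbs ^ 2 := by rw [hu, Int.natAbs_mul, sq]
    have hdvd : n i ∣ u.natAbs := by
      simp only [n]
      rw [e, Nat.primeFactors_pow _ two_ne_zero]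
      exact Nat.prod_primeFactors_dvd _
    rw [e]
    push_cast
    exact pow_le_pow_left₀ (Nat.cast_nonneg _)
      (Nat.cast_le.mpr (Nat.le_of_dvd (Nat.pos_of_ne_zero hu0) hdvd)) 2
  have hfib : ∀ m : Icc 1 M, Finite {i // n i = m.1} ∧
      (Nat.card {i // n i = m.1} : ℝ) ≤ C * (M : ℝ) ^ (2 / 3 + 2 * ε) := by
    intro m
    obtain ⟨hm1, hmM⟩ := mem_Icc.mp m.2
    obtain ⟨hfin, -, hc⟩ := hram m.1.primeFactors (fun p hp => Nat.prime_of_mem_primeFactors hp)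
      {i // n i = m.1} (fun i => L i.1) (fun i => h4 i.1) (fun i p hp h => by
        refine Nat.mem_primeFactors.mpr ⟨hp, ?_, by omega⟩
        rw [← i.2]
        exact dvd_prod_of_mem _ (Nat.mem_primeFactors.mpr ⟨hp, Int.natCast_dvd.mp h,
          Int.natAbs_ne_zero.mpr (discr_ne_zero _)⟩))
      fun i j e => Subtype.ext (hne _ _ e)
    refine ⟨hfin, (hc fun i => hsq i.1).trans (mul_le_mul_of_nonneg_left
      (Real.rpow_le_rpow (Nat.cast_nonneg _) ?_ (by positivity)) hC)⟩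
    exact Nat.cast_le.mpr ((Nat.le_of_dvd hm1 (Nat.prod_primeFactors_dvd _)).trans hmM)
  haveI : ∀ m : Icc 1 M, Finite {i // n i = m.1} := fun m => (hfib m).1
  let e : (Σ m : Icc 1 M, {i // n i = m.1}) ≃ ι :=
    { toFun := fun x => x.2.1
      invFun := fun i => ⟨⟨n i, hmem i⟩, i, rfl⟩
      left_inv := fun x => Sigma.subtype_ext (Subtype.ext x.2.2) rfl
      right_inv := fun i => rfl }
  refine ⟨Finite.of_equiv _ e, ?_⟩
  rw [← Nat.card_congr e, Nat.card_sigma, Nat.cast_sum]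
  refine (sum_le_card_nsmul (univ : Finset (Icc 1 M))
    (fun m => (Nat.card {i // n i = m.1} : ℝ)) _ fun m _ => (hfib m).2).trans ?_
  rw [card_univ, Fintype.card_coe, Nat.card_Icc, Nat.add_sub_cancel, nsmul_eq_mul]
  rcases Nat.eq_zero_or_pos M with h0 | h0
  · rw [h0, Nat.cast_zero, zero_mul]
    positivity
  have hM : (0 : ℝ) < M := Nat.cast_pos.mpr h0
  calc (M : ℝ) * (C * (M : ℝ) ^ (2 / 3 + 2 * ε)) = C * (M : ℝ) ^ (5 / 3 + 2 * ε) := by
        nth_rewrite 1 [← Real.rpow_one (M : ℝ)]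
        rw [mul_left_comm, ← Real.rpow_add hM]
        ring_nf
    _ ≤ C * Real.sqrt X ^ (5 / 3 + 2 * ε) := mul_le_mul_of_nonneg_left
        (Real.rpow_le_rpow hM.le (Nat.floor_le (Real.sqrt_nonneg _)) (by positivity)) hC
    _ = _ := by
        rw [Real.sqrt_eq_rpow, ← Real.rpow_mul hX]
        ring_nf

end FA.QuarticResolvent
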